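/-
C1 nodal core, Layer L (architect helper201): the main theorem of the abstract setting.

`Setup.main`: let `g` be an automorphism of `F` preserving all the data and acting on the points of
the conductor as the `Q`-th power (`Q = 1`: inertia; `Q = q ^ 2`: square of a Frobenius).  Then for
`u ≡ 1` with `n ∣ div u` the element `h = g u / u ^ Q` has sections `s₁`, `s₂ ≡ 1` on both charts:
`s_i ^ n * h ∈ B_i`.
-/
import Fermat.Agent.S34.Nodal.Setup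

set_option autoImplicit false

namespace Fermat.Agent.S34.Nodal

open Module

namespace Setup

variable {k : Type*} [Field k] {F : Type*} [Field F] {Ω : Type*} [CommRing Ω] [Algebra k Ω]
  {T : Type*} (S : Setup k F Ω T)

theorem red_pow_eq {u y : S.O} (hu : S.red u = 1) : S.red y ^ S.n = S.red (y ^ S.n * u) := by
  rw [map_mul, hu, mul_one, map_pow]

theorem red_mem_bt1 {u : S.O} (hu : S.red u = 1) {e : ℕ} {y : S.O} (hy : y ∈ S.H u e) :
    S.red y ∈ S.bt1 := by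
  apply S.int1
  rw [S.red_pow_eq hu]
  exact S.red1 _ hy.1

theorem red_mem_window {u : S.O} (hu : S.red u = 1) {e : ℕ} {y : S.O} (hy : y ∈ S.H u e) :
    S.red S.xinvO ^ e * S.red y ∈ S.bt2 := by
  have h1 : S.red S.xinvO ^ e * S.red y = S.red (S.xinvO ^ e * y) := by
    rw [map_mul, map_pow]
  rw [h1]
  apply S.int2
  rw [S.red_pow_eq hu]
  exact S.red2 _ hy.2

theorem Y_le_Lt {u : S.O} (hu : S.red u = 1) (e : ℕ) : S.Y u e ≤ S.Lt e := by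
  rintro w ⟨y, hy, hw⟩
  rw [mem_Lt, ← hw]
  exact S.red_mem_window hu hy

theorem Y_mono (u : F) {e e' : ℕ} (h : e ≤ e') : S.Y u e ≤ S.Y u e' := by
  rintro w ⟨y, hy, hw⟩
  exact ⟨y, S.H_mono h hy, hw⟩

theorem mem_H_one_iff {e : ℕ} {y : S.O} :
    y ∈ S.H 1 e ↔ (y : F) ∈ S.B1 ∧ S.x⁻¹ ^ e * (y : F) ∈ S.B2 := by
  constructor
  · rintro ⟨h1, h2⟩
    rw [mul_one] at h1 h2
    exact ⟨S.root1 _ h1, S.root2 _ h2⟩
  · rintro ⟨h1, h2⟩
    exact ⟨by rw [mul_one]; exact S.B1.pow_mem h1 _, by rw [mul_one]; exact S.B2.pow_mem h2 _⟩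

theorem exists_mem_Y_one {w : S.bt1} (hw : w ∈ S.G) : ∃ e, w ∈ S.Y 1 e := by
  obtain ⟨b, hb, hbw⟩ := hw
  obtain ⟨e, he⟩ := S.exhaust b hb
  exact ⟨e, b, S.mem_H_one_iff.2 ⟨hb, he⟩, hbw⟩

variable [Finite T]

theorem exists_ev_Y_one : ∃ e₁ : ℕ, ∀ e, e₁ ≤ e → ∀ g ∈ S.G, ∃ w ∈ S.Y 1 e, S.ev w = S.ev g := by
  classical
  let f : ℕ →o Submodule k (T → k) :=
    ⟨fun e => (S.Y 1 e).map S.ev.toLinearMap, fun e e' h => Submodule.map_mono (S.Y_mono 1 h)⟩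
  obtain ⟨e₁, he₁⟩ := monotone_stabilizes_iff_noetherian.mpr
    (inferInstance : IsNoetherian k (T → k)) f
  refine ⟨e₁, fun e he g hg => ?_⟩
  obtain ⟨e', he'⟩ := S.exists_mem_Y_one hg
  have h1 : S.ev g ∈ f (max e' e₁) :=
    ⟨g, S.Y_mono 1 (le_max_left _ _) he', rfl⟩
  rw [← he₁ _ (le_max_right _ _), he₁ e he] at h1
  obtain ⟨w, hw, hwg⟩ := h1
  exact ⟨w, hw, hwg⟩

/-- The hypotheses of the count hold for large `e`. -/
theorem countHyp {u : S.O} (hu : S.red u = 1) (hR : S.Riem u) :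
    ∃ e₀ : ℕ, ∀ e, e₀ ≤ e → CountHyp S.n S.G S.ev (S.Lt e) (S.Y 1 e) (S.Y u e) := by
  obtain ⟨e₁, he₁⟩ := S.exists_ev_Y_one
  obtain ⟨e₂, he₂⟩ := hR
  obtain ⟨c, hc⟩ := S.lift
  refine ⟨max e₁ (max e₂ c), fun e he => ?_⟩
  have h1 : e₁ ≤ e := le_trans (le_max_left _ _) he
  have h2 : e₂ ≤ e := le_trans (le_trans (le_max_left _ _) (le_max_right _ _)) he
  have h3 : c ≤ e := le_trans (le_trans (le_max_right _ _) (le_max_right _ _)) he
  obtain ⟨hf1, hfu, hdim⟩ := he₂ e h2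
  refine
    { npos := S.npos
      ker_le := fun w hw => S.ker_ev w hw
      Y1_le_G := ?_
      Y1_le := ?_
      ker_Lt := ?_
      ev_Y1 := he₁ e h1
      Yu_le := S.Y_le_Lt hu e
      pow_mem := ?_
      fin1 := hf1
      finu := hfu
      dim_le := hdim }
  · rintro w ⟨y, hy, hw⟩
    exact ⟨y, (S.mem_H_one_iff.1 hy).1, hw⟩
  · have := S.Y_le_Lt (u := 1) (map_one _) e
    simpa using this
  · intro w hw hev
    obtain ⟨b, hb, hbw⟩ := S.ker_ev w hev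
    obtain ⟨y, hy1, hy2, hy⟩ := hc e h3 b hb (by rw [hbw]; exact hw)
    exact ⟨y, S.mem_H_one_iff.2 ⟨hy1, hy2⟩, by rw [hy, hbw]⟩
  · rintro w ⟨y, hy, hw⟩
    refine ⟨y ^ S.n * u, hy.1, ?_⟩
    rw [← S.red_pow_eq hu, hw]
    rfl

/-- If `H h e` contains an element which is `1` at all the points of the conductor, then `h` has
sections `≡ 1` on both charts. -/
theorem exists_sections {h : S.O} (hh : S.red h = 1) (hR : S.Riem h) {e : ℕ} {p : S.O}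
    (hp : p ∈ S.H h e) (hp1 : S.ev ⟨S.red p, S.red_mem_bt1 hh hp⟩ = 1) :
    (∃ s : S.O, (s : F) ^ S.n * h ∈ S.B1 ∧ S.red s = 1) ∧
      ∃ s : S.O, (s : F) ^ S.n * h ∈ S.B2 ∧ S.red s = 1 := by
  obtain ⟨e₀, he₀⟩ := S.countHyp hh hR
  set e' := max e e₀ with he'
  have hC := he₀ e' (le_max_right _ _)
  have hle : S.Y 1 e' ≤ S.Y h e' :=
    hC.le_of_ev_eq_one (p := ⟨S.red p, S.red_mem_bt1 hh hp⟩)
      ⟨p, S.H_mono (le_max_left _ _) hp, rfl⟩ hp1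
  constructor
  · have h1 : (1 : S.bt1) ∈ S.Y 1 e' := by
      refine ⟨1, S.mem_H_one_iff.2 ⟨S.B1.one_mem, ?_⟩, by rw [map_one]; rfl⟩
      simpa using S.B2.pow_mem S.xinv_mem e'
    obtain ⟨s, hs, hs1⟩ := hle h1
    exact ⟨s, hs.1, hs1⟩
  · have hx : S.red (S.xO ^ e') ∈ S.bt1 := S.red1 _ (S.B1.pow_mem S.x_mem e')
    have h1 : (⟨S.red (S.xO ^ e'), hx⟩ : S.bt1) ∈ S.Y 1 e' := by
      refine ⟨S.xO ^ e', S.mem_H_one_iff.2 ⟨S.B1.pow_mem S.x_mem e', ?_⟩, rfl⟩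
      have : S.x⁻¹ ^ e' * ((S.xO ^ e' : S.O) : F) = 1 := by
        show S.x⁻¹ ^ e' * S.x ^ e' = 1
        rw [← mul_pow, inv_mul_cancel₀ S.x_ne, one_pow]
      rw [this]
      exact S.B2.one_mem
    obtain ⟨y, hy, hy1⟩ := hle h1
    refine ⟨S.xinvO ^ e' * y, hy.2, ?_⟩
    rw [map_mul, hy1]
    show S.red (S.xinvO ^ e') * S.red (S.xO ^ e') = 1
    rw [← map_mul, ← mul_pow, mul_comm, S.xO_mul_xinvO, one_pow, map_one]

/-- A pair of sections of `u` and `u⁻¹` whose product is `1` at all the points of the conductor. -/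
theorem exists_pair {u u' : S.O} (huu' : u * u' = 1) (hu : S.red u = 1) (hR : S.Riem u)
    (hR' : S.Riem u') :
    ∃ (e : ℕ) (y y' : S.O) (hy : S.red y ∈ S.bt1) (hy' : S.red y' ∈ S.bt1),
      y ∈ S.H u e ∧ y' ∈ S.H u' e ∧ S.ev ⟨S.red y, hy⟩ * S.ev ⟨S.red y', hy'⟩ = 1 := by
  have hu' : S.red u' = 1 := by
    have := congrArg S.red huu'
    rwa [map_mul, hu, one_mul, map_one] at this
  obtain ⟨e₀, he₀⟩ := S.countHyp hu hR
  obtain ⟨e₀', he₀'⟩ := S.countHyp hu' hR'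
  set e := max e₀ e₀' with he
  have hC := he₀ e (le_max_left _ _)
  have hC' := he₀' e (le_max_right _ _)
  obtain ⟨w, ⟨y, hy, hyw⟩, w', ⟨y', hy', hyw'⟩, hww'⟩ := hC.exists_pair hC' (by
    rintro w ⟨y, hy, hyw⟩ w' ⟨y', hy', hyw'⟩
    have h1 := S.H_mul hy hy'
    have h2 : (u : F) * (u' : F) = 1 := congrArg Subtype.val huu'
    rw [h2] at h1
    exact ⟨y * y', (S.mem_H_one_iff.1 h1).1, by rw [map_mul, hyw, hyw']; rfl⟩)
  refine ⟨e, y, y', by rw [hyw]; exact w.2, by rw [hyw']; exact w'.2, hy, hy', ?_⟩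
  have e1 : (⟨S.red y, by rw [hyw]; exact w.2⟩ : S.bt1) = w := Subtype.ext hyw
  have e2 : (⟨S.red y', by rw [hyw']; exact w'.2⟩ : S.bt1) = w' := Subtype.ext hyw'
  rw [e1, e2, hww']

/-- **Main theorem of the abstract nodal setting.** -/
theorem main (g : F ≃+* F) (φ : Ω →+* Ω) (Q : ℕ)
    (hgO : ∀ y ∈ S.O, g y ∈ S.O) (hg1 : ∀ y ∈ S.B1, g y ∈ S.B1) (hg2 : ∀ y ∈ S.B2, g y ∈ S.B2)
    (hgx : g S.x = S.x) (hgred : ∀ y : S.O, S.red ⟨g y, hgO y y.2⟩ = φ (S.red y))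
    (hφ : ∀ w : S.bt1, ∃ hm : φ w ∈ S.bt1, S.ev ⟨φ w, hm⟩ = S.ev w ^ Q)
    {u u' : S.O} (huu' : u * u' = 1) (hu : S.red u = 1) (hR : S.Riem u) (hR' : S.Riem u')
    (hRh : S.Riem (g u * (u' : F) ^ Q)) :
    (∃ s : S.O, (s : F) ^ S.n * (g u * (u' : F) ^ Q) ∈ S.B1 ∧ S.red s = 1) ∧
      ∃ s : S.O, (s : F) ^ S.n * (g u * (u' : F) ^ Q) ∈ S.B2 ∧ S.red s = 1 := by
  have hu' : S.red u' = 1 := by
    have := congrArg S.red huu'
    rwa [map_mul, hu, one_mul, map_one] at this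
  obtain ⟨e, y, y', hy, hy', hyH, hyH', hev⟩ := S.exists_pair huu' hu hR hR'
  set gO : S.O → S.O := fun z => ⟨g z, hgO z z.2⟩ with hgOdef
  set h : S.O := gO u * u' ^ Q with hh
  have hhF : (h : F) = g u * (u' : F) ^ Q := rfl
  have hredh : S.red h = 1 := by
    rw [hh, map_mul, map_pow, hu', one_pow, mul_one, hgred, hu, map_one]
  -- `g y ∈ H (g u) e`
  have hgy : gO y ∈ S.H (g u) e := by
    constructor
    · have : ((gO y : S.O) : F) ^ S.n * g u = g ((y : F) ^ S.n * u) := by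
        rw [map_mul, map_pow]
      rw [this]
      exact hg1 _ hyH.1
    · have : (S.x⁻¹ ^ e * ((gO y : S.O) : F)) ^ S.n * g u
          = g ((S.x⁻¹ ^ e * (y : F)) ^ S.n * u) := by
        rw [map_mul, map_pow, map_mul, map_pow, map_inv₀, hgx]
      rw [this]
      exact hg2 _ hyH.2
  have hp : gO y * y' ^ Q ∈ S.H h (e + Q * e) := by
    have := S.H_mul hgy (S.H_pow hyH' Q)
    rwa [← hhF] at this
  rw [← hhF] at hRh ⊢
  refine S.exists_sections hredh hRh hp ?_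
  obtain ⟨hm, hm'⟩ := hφ ⟨S.red y, hy⟩
  have e1 : (⟨S.red (gO y * y' ^ Q), S.red_mem_bt1 hredh hp⟩ : S.bt1)
      = ⟨φ (S.red y), hm⟩ * ⟨S.red y', hy'⟩ ^ Q := by
    apply Subtype.ext
    show S.red (gO y * y' ^ Q) = φ (S.red y) * S.red y' ^ Q
    rw [map_mul, map_pow, hgred]
  rw [e1, map_mul, map_pow, hm', ← mul_pow, hev, one_pow]

end Setup

end Fermat.Agent.S34.Nodal
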