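/-
C1 nodal core, block RIEM, part 1 (owner helper94): the echelon lemma.

`K` a field with a valuation ring `A`, `res : A → k` the residue map, `F` a `K`-algebra (a field of
functions), `O ⊆ F` the "unit ball" (all coefficients of all expansions lie in `A`),
`red : O → Ω` the reduction.  If the norm of every nonzero element is attained (`norm`) and the
points of `Ω` are separated by reductions of `K`-linear functionals which are bounded on the unit
ball of any given finite dimensional subspace (`sep`: think of the coefficient functionals after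
multiplication by a common denominator), then the reduction of the unit ball `V ∩ O` of a finite dimensional
`K`-subspace `V` of `F` is a `k`-vector space of the same dimension.
The `k`-module structure of `Ω` is an arbitrary one (there are two non defeq `k`-module structures
on `k((t))` in Mathlib), linked to the ring structure only through `red_smul`.
Mathlib only.
-/
import Mathlib

set_option autoImplicit false

namespace Fermat.Agent.S34.Nodal

open Module

/-- The hypotheses of the echelon lemma. -/
structure EchelonData (K : Type*) [Field K] (k : Type*) [Field k] {F : Type*} [Field F]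
    [Algebra K F] {Ω : Type*} [CommRing Ω] [Module k Ω] (O : Subring F) (red : O →+* Ω) where
  /-- the valuation ring of the constants -/
  A : ValuationSubring K
  /-- the residue map -/
  res : A →+* k
  res_surj : Function.Surjective res
  const_mem : ∀ a : A, algebraMap K F a ∈ O
  red_smul : ∀ (a : A) (y : O), red (⟨algebraMap K F a, const_mem a⟩ * y) = res a • red y
  norm : ∀ f : F, f ≠ 0 → ∃ c : K, ∃ h : algebraMap K F c * f ∈ O, red ⟨_, h⟩ ≠ 0
  sep : ∀ (V : Submodule K F) [Module.Finite K V] (ω : Ω), ω ≠ 0 →
    ∃ (l : F →ₗ[K] K) (lb : Ω →ₗ[k] k),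
      (∀ z : O, (z : F) ∈ V → ∃ h : l z ∈ A, lb (red z) = res ⟨l z, h⟩) ∧ lb ω ≠ 0

namespace EchelonData

variable {K : Type*} [Field K] {k : Type*} [Field k] {F : Type*} [Field F] [Algebra K F]
  {Ω : Type*} [CommRing Ω] [Module k Ω] {O : Subring F} {red : O →+* Ω}
  (E : EchelonData K k O red)

/-- a constant of `A` as an element of `O` -/
def cst (a : E.A) : O := ⟨algebraMap K F a, E.const_mem a⟩

theorem red_cst_mul (a : E.A) (y : O) : red (E.cst a * y) = E.res a • red y := E.red_smul a y

include E in
/-- Elements of the unit ball with independent reductions are independent. -/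
theorem linearIndependent_of_red {ι : Type*} (y : ι → O)
    (h : LinearIndependent k fun i => red (y i)) :
    LinearIndependent K fun i => ((y i : O) : F) := by
  classical
  rw [linearIndependent_iff']
  intro s g hg i₀ hi₀
  by_contra hne
  obtain ⟨j, hjs, hj⟩ := Finset.exists_max_image s (fun i => E.A.valuation (g i)) ⟨i₀, hi₀⟩
  have hgj : g j ≠ 0 := by
    intro h0
    have h1 := hj i₀ hi₀
    rw [h0, map_zero] at h1
    exact hne ((map_eq_zero _).mp (le_antisymm h1 zero_le))
  have hmem : ∀ i ∈ s, g i / g j ∈ E.A := by
    intro i hi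
    rw [← E.A.valuation_le_one_iff, map_div₀]
    exact div_le_one_of_le₀ (hj i hi) zero_le
  let c : ι → E.A := fun i => if hi : g i / g j ∈ E.A then ⟨_, hi⟩ else 0
  have hc : ∀ i ∈ s, ((c i : E.A) : K) = g i / g j := by
    intro i hi
    simp only [c, dif_pos (hmem i hi)]
  have hsum : ∑ i ∈ s, E.cst (c i) * y i = 0 := by
    apply Subtype.ext
    rw [AddSubmonoidClass.coe_finsetSum, Subring.coe_zero]
    have h1 : ∀ i ∈ s, ((E.cst (c i) * y i : O) : F) = (g j)⁻¹ • (g i • ((y i : O) : F)) := by
      intro i hi
      show algebraMap K F (c i) * (y i : F) = _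
      rw [hc i hi, smul_smul, Algebra.smul_def, div_eq_inv_mul]
    rw [Finset.sum_congr rfl h1, ← Finset.smul_sum, hg, smul_zero]
  have hred : ∑ i ∈ s, E.res (c i) • red (y i) = 0 := by
    have := congrArg red hsum
    rw [map_sum, map_zero] at this
    rw [← this]
    exact Finset.sum_congr rfl fun i _ => (E.red_cst_mul _ _).symm
  have h0 := linearIndependent_iff'.mp h s (fun i => E.res (c i)) hred j hjs
  have h1 : c j = 1 := by
    apply Subtype.ext
    rw [hc j hjs, div_self hgj]
    rfl
  rw [h1, map_one] at h0
  exact one_ne_zero h0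

/-- rank-nullity for a linear form which does not vanish on a subspace -/
theorem finrank_inf_ker {V : Submodule K F} [Module.Finite K V] (l : F →ₗ[K] K) {y : F}
    (hy : y ∈ V) (hl : l y ≠ 0) : finrank K ↥(V ⊓ LinearMap.ker l) + 1 = finrank K V := by
  have h := LinearMap.finrank_range_add_finrank_ker (l.domRestrict V)
  have hr : LinearMap.range (l.domRestrict V) = ⊤ := by
    rw [LinearMap.range_eq_top]
    intro a
    refine ⟨(a / l y) • ⟨y, hy⟩, ?_⟩
    rw [map_smul, LinearMap.domRestrict_apply, smul_eq_mul, div_mul_cancel₀ _ hl]
  rw [hr, finrank_top, finrank_self, LinearMap.ker_domRestrict] at h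
  rw [← h, ← Submodule.map_comap_subtype, Submodule.finrank_map_subtype_eq, add_comm]

include E in
/-- **Echelon basis**: the unit ball of a finite dimensional subspace contains as many elements
with independent reductions as the dimension. -/
theorem exists_indep (r : ℕ) : ∀ (V : Submodule K F) [Module.Finite K V], finrank K V = r →
    ∃ y : Fin r → O, (∀ i, ((y i : O) : F) ∈ V) ∧ LinearIndependent k fun i => red (y i) := by
  induction r with
  | zero =>
    intro V _ _
    exact ⟨Fin.elim0, fun i => i.elim0, linearIndependent_empty_type⟩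
  | succ r ih =>
    intro V _ hV
    have hVne : V ≠ ⊥ := by
      rintro rfl
      rw [finrank_bot] at hV
      omega
    obtain ⟨f, hfV, hf0⟩ := Submodule.exists_mem_ne_zero_of_ne_bot hVne
    obtain ⟨c, hcO, hcred⟩ := E.norm f hf0
    set y₀ : O := ⟨algebraMap K F c * f, hcO⟩ with hy₀
    have hy₀V : (y₀ : F) ∈ V := by
      show algebraMap K F c * f ∈ V
      rw [← Algebra.smul_def]
      exact V.smul_mem c hfV
    obtain ⟨l, lb, hl, hlb⟩ := E.sep V (red y₀) hcred
    have hly₀ : l (y₀ : F) ≠ 0 := by
      obtain ⟨h, h'⟩ := hl y₀ hy₀V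
      intro h0
      apply hlb
      rw [h']
      have : (⟨l (y₀ : F), h⟩ : E.A) = 0 := Subtype.ext h0
      rw [this, map_zero]
    have hfin : Module.Finite K ↥(V ⊓ LinearMap.ker l) :=
      Submodule.finiteDimensional_of_le inf_le_left
    have hdim : finrank K ↥(V ⊓ LinearMap.ker l) = r := by
      have := finrank_inf_ker l hy₀V hly₀
      omega
    obtain ⟨y, hyV, hyind⟩ := ih (V ⊓ LinearMap.ker l) hdim
    refine ⟨Fin.cons y₀ y, ?_, ?_⟩
    · intro i
      refine Fin.cases ?_ (fun i => ?_) i
      · exact hy₀V
      · exact (hyV i).1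
    · have e : (fun i => red ((Fin.cons y₀ y : Fin (r + 1) → O) i))
          = Fin.cons (red y₀) fun i => red (y i) := by
        funext i
        refine Fin.cases ?_ (fun i => ?_) i
        · rfl
        · rfl
      rw [e, linearIndependent_finCons]
      refine ⟨hyind, fun hmem => hlb ?_⟩
      have hle : Submodule.span k (Set.range fun i => red (y i)) ≤ LinearMap.ker lb := by
        rw [Submodule.span_le]
        rintro _ ⟨i, rfl⟩
        obtain ⟨h, h'⟩ := hl (y i) (hyV i).1
        show lb (red (y i)) = 0
        rw [h']
        have : (⟨l (y i : F), h⟩ : E.A) = 0 := Subtype.ext (hyV i).2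
        rw [this, map_zero]
      exact hle hmem

/-- The reduction of the unit ball of a `K`-subspace. -/
def redSpace (V : Submodule K F) : Submodule k Ω where
  carrier := {ω | ∃ y : O, (y : F) ∈ V ∧ red y = ω}
  add_mem' := by
    rintro _ _ ⟨y, hy, rfl⟩ ⟨y', hy', rfl⟩
    exact ⟨y + y', V.add_mem hy hy', map_add _ _ _⟩
  zero_mem' := ⟨0, V.zero_mem, map_zero _⟩
  smul_mem' := by
    rintro c _ ⟨y, hy, rfl⟩
    obtain ⟨a, rfl⟩ := E.res_surj c
    refine ⟨E.cst a * y, ?_, E.red_cst_mul a y⟩
    show algebraMap K F a * (y : F) ∈ V
    rw [← Algebra.smul_def]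
    exact V.smul_mem _ hy

theorem mem_redSpace {V : Submodule K F} {ω : Ω} :
    ω ∈ E.redSpace V ↔ ∃ y : O, (y : F) ∈ V ∧ red y = ω := Iff.rfl

theorem rank_redSpace_le (V : Submodule K F) [Module.Finite K V] :
    Module.rank k (E.redSpace V) ≤ (finrank K V : ℕ) := by
  classical
  apply rank_le
  intro s hs
  choose y hyV hy using fun w : E.redSpace V => w.2
  have h1 : LinearIndependent k fun i : s => red (y i) := by
    have h2 : LinearIndependent k fun i : s => (((i : E.redSpace V)) : Ω) :=
      hs.map' (E.redSpace V).subtype (Submodule.ker_subtype _)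
    have e : (fun i : s => red (y i)) = fun i : s => (((i : E.redSpace V)) : Ω) := by
      funext i
      exact hy i
    rw [e]
    exact h2
  have h3 := E.linearIndependent_of_red (fun i : s => y i) h1
  have h4 : LinearIndependent K fun i : s => (⟨(y i : F), hyV i⟩ : V) := by
    apply LinearIndependent.of_comp V.subtype
    exact h3
  have := h4.fintype_card_le_finrank
  simpa using this

theorem finite_redSpace (V : Submodule K F) [Module.Finite K V] :
    Module.Finite k (E.redSpace V) :=
  Module.rank_lt_aleph0_iff.mp
    (lt_of_le_of_lt (E.rank_redSpace_le V) (Cardinal.natCast_lt_aleph0))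

/-- **The echelon lemma.** -/
theorem finrank_redSpace (V : Submodule K F) [Module.Finite K V] :
    finrank k (E.redSpace V) = finrank K V := by
  have := E.finite_redSpace V
  apply le_antisymm
  · have h := E.rank_redSpace_le V
    rw [← finrank_eq_rank] at h
    exact_mod_cast h
  · obtain ⟨y, hyV, hy⟩ := E.exists_indep _ V rfl
    have h4 : LinearIndependent k fun i => (⟨red (y i), y i, hyV i, rfl⟩ : E.redSpace V) := by
      apply LinearIndependent.of_comp (E.redSpace V).subtype
      exact hy
    have := h4.fintype_card_le_finrank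
    simpa using this

end EchelonData

end Fermat.Agent.S34.Nodal
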