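/-
C1 nodal core, block RIEM, part 2 (owner helper94): the Riemann hypothesis `Setup.Riem` of the
abstract nodal setting, from Riemann's theorem on the generic fibre (S27, part B) and the echelon
lemma (`EchelonRed.lean`).

Generic fibre: `K` algebraically closed of characteristic zero, `F / K` a function field in one
variable.  For a Kummer element `u` (`n ∣ ord_v u` for all `v`)
`{y | y ^ n * u regular where x is, (x⁻¹ ^ e * y) ^ n * u regular where x⁻¹ is}`
is the Riemann-Roch space of `div u / n + e (x)_∞`, a divisor of degree `e * deg (x)_∞`.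
-/
import Fermat.Agent.S34.Nodal.Main
import Fermat.Agent.S34.Nodal.EchelonRed
import Fermat.Agent.S27.Riemann
import Fermat.Agent.S18.Places.Dedekind

set_option autoImplicit false

noncomputable section

namespace Fermat.Agent.S34.Nodal

open AlgebraicCurve Fermat.Agent.S24.FF Fermat.Agent.S27.Riemann Module

section Generic

variable {K F : Type*} [Field K] [Field F] [Algebra K F] [CharZero K] [IsAlgClosed K] [IsFF1 K F]

/-- `div u / n`. -/
def rootDiv (n : ℕ) (u : F) : Divisor K F :=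
  Finsupp.ofSupportFinite (fun v => v.ord u / (n : ℤ))
    ((finite_ord_ne_zero (K := K) u).subset fun v hv => by
      simp only [Function.mem_support] at hv
      show v.ord u ≠ 0
      intro h
      rw [h] at hv
      simp at hv)

@[simp] theorem rootDiv_apply (n : ℕ) (u : F) (v : Place K F) :
    rootDiv n u v = v.ord u / (n : ℤ) := rfl

theorem degree_rootDiv {n : ℕ} (hn : 0 < n) {u : F} (hu : ∀ v : Place K F, (n : ℤ) ∣ v.ord u) :
    Divisor.degree (rootDiv (K := K) n u) = 0 := by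
  have h1 : n • rootDiv (K := K) n u = divOf u := by
    ext v
    rw [Finsupp.smul_apply, rootDiv_apply, divOf_apply, nsmul_eq_mul]
    exact Int.mul_ediv_cancel' (hu v)
  have h2 := congrArg Divisor.degree h1
  rw [map_nsmul, degree_divOf, nsmul_eq_mul] at h2
  rcases mul_eq_zero.mp h2 with h | h
  · exfalso
    have : (n : ℤ) ≠ 0 := by exact_mod_cast hn.ne'
    exact this h
  · exact h

/-- `div u / n + e (x)_∞`. -/
def kumDiv (n : ℕ) (u x : F) (e : ℕ) : Divisor K F := rootDiv n u + e • poleDiv x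

theorem kumDiv_apply (n : ℕ) (u x : F) (e : ℕ) (v : Place K F) :
    kumDiv n u x e v = v.ord u / (n : ℤ) + e * max 0 (-v.ord x) := by
  rw [kumDiv, Finsupp.add_apply, Finsupp.smul_apply, rootDiv_apply, poleDiv_apply, nsmul_eq_mul]

theorem degree_kumDiv {n : ℕ} (hn : 0 < n) {u : F} (hu : ∀ v : Place K F, (n : ℤ) ∣ v.ord u)
    (x : F) (e : ℕ) :
    Divisor.degree (kumDiv (K := K) n u x e) = e * Divisor.degree (poleDiv (K := K) x) := by
  rw [kumDiv, map_add, degree_rootDiv hn hu, map_nsmul, zero_add, nsmul_eq_mul]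

/-- The sections of `div u / n + e (x)_∞`, in the language of the two charts. -/
theorem mem_riemannRochSpace_kumDiv {n : ℕ} (hn : 0 < n) {u x : F} (hu0 : u ≠ 0) (hx0 : x ≠ 0)
    (hu : ∀ v : Place K F, (n : ℤ) ∣ v.ord u) (e : ℕ) (y : F) :
    y ∈ riemannRochSpace (kumDiv (K := K) n u x e) ↔
      (∀ v : Place K F, 0 ≤ v.ord x → 0 ≤ v.ord (y ^ n * u)) ∧
        ∀ v : Place K F, v.ord x ≤ 0 → 0 ≤ v.ord ((x⁻¹ ^ e * y) ^ n * u) := by
  rcases eq_or_ne y 0 with rfl | hy0
  · simp [zero_pow hn.ne']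
  have hnZ : (0 : ℤ) < n := by exact_mod_cast hn
  have key1 : ∀ v : Place K F, v.ord (y ^ n * u) = n * (v.ord y + v.ord u / (n : ℤ)) := by
    intro v
    rw [v.ord_mul (pow_ne_zero _ hy0) hu0, ord_pow, mul_add, Int.mul_ediv_cancel' (hu v)]
  have key2 : ∀ v : Place K F, v.ord ((x⁻¹ ^ e * y) ^ n * u)
      = n * (-(e * v.ord x) + v.ord y + v.ord u / (n : ℤ)) := by
    intro v
    have h1 : x⁻¹ ^ e ≠ 0 := pow_ne_zero _ (inv_ne_zero hx0)
    rw [v.ord_mul (pow_ne_zero _ (mul_ne_zero h1 hy0)) hu0, ord_pow, v.ord_mul h1 hy0, ord_pow,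
      v.ord_inv, mul_add (n : ℤ) _ (v.ord u / (n : ℤ)), Int.mul_ediv_cancel' (hu v)]
    ring
  rw [mem_riemannRochSpace_iff]
  constructor
  · intro h
    constructor
    · intro v hv
      have h1 := (h v).resolve_left hy0
      rw [kumDiv_apply, max_eq_left (by omega)] at h1
      rw [key1]
      exact mul_nonneg hnZ.le (by omega)
    · intro v hv
      have h1 := (h v).resolve_left hy0
      rw [kumDiv_apply, max_eq_right (by omega)] at h1
      rw [key2]
      refine mul_nonneg hnZ.le ?_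
      have : (e : ℤ) * -v.ord x = -(e * v.ord x) := by ring
      omega
  · rintro ⟨h1, h2⟩ v
    right
    rw [kumDiv_apply]
    rcases le_total 0 (v.ord x) with hv | hv
    · have h3 := h1 v hv
      rw [key1] at h3
      have h4 := nonneg_of_mul_nonneg_right h3 hnZ
      rw [max_eq_left (by omega)]
      omega
    · have h3 := h2 v hv
      rw [key2] at h3
      have h4 := nonneg_of_mul_nonneg_right h3 hnZ
      rw [max_eq_right (by omega)]
      have : (e : ℤ) * -v.ord x = -(e * v.ord x) := by ring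
      omega

/-- **Riemann**: for large `e` the dimension of `L(div u / n + e (x)_∞)` does not depend on the
Kummer element `u`. -/
theorem exists_finrank_kumDiv_eq {x : F} (hx : Transcendental K x) :
    ∃ e₀ : ℕ, ∀ e, e₀ ≤ e → ∀ n : ℕ, 0 < n → ∀ u u' : F,
      (∀ v : Place K F, (n : ℤ) ∣ v.ord u) → (∀ v : Place K F, (n : ℤ) ∣ v.ord u') →
      finrank K (riemannRochSpace (kumDiv (K := K) n u x e))
        = finrank K (riemannRochSpace (kumDiv (K := K) n u' x e)) := by
  obtain ⟨c, hc⟩ := exists_finrank_L_eq (K := K) (F := F) ⟨x, hx⟩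
  refine ⟨c.toNat, fun e he n hn u u' hu hu' => ?_⟩
  have hfin : FiniteDimensional (IntermediateField.adjoin K {x}) F := IsFF1.finite x hx
  have hd : (1 : ℤ) ≤ Divisor.degree (poleDiv (K := K) x) := by
    rw [degree_poleDiv x hx]
    exact_mod_cast (finrank_pos : 0 < finrank (IntermediateField.adjoin K {x}) F)
  have hce : c ≤ e * Divisor.degree (poleDiv (K := K) x) := by
    have h1 : c ≤ (e : ℤ) := by omega
    have h2 : (e : ℤ) * 1 ≤ e * Divisor.degree (poleDiv (K := K) x) :=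
      mul_le_mul_of_nonneg_left hd (by positivity)
    omega
  have h1 := hc (kumDiv n u x e) (by rw [degree_kumDiv hn hu]; exact hce)
  have h2 := hc (kumDiv n u' x e) (by rw [degree_kumDiv hn hu']; exact hce)
  rw [degree_kumDiv hn hu] at h1
  rw [degree_kumDiv hn hu'] at h2
  omega

end Generic

namespace Setup

variable {K : Type*} [Field K] [CharZero K] [IsAlgClosed K]
  {k : Type*} [Field k] {F : Type*} [Field F] [Algebra K F] [IsFF1 K F]
  {Ω : Type*} [CommRing Ω] [Nontrivial Ω] [Algebra k Ω] {T : Type*} (S : Setup k F Ω T)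

/-- The charts of the setup are cut out of `O` by regularity conditions on the generic fibre. -/
structure ChartsByPlaces (K : Type*) [Field K] [Algebra K F] : Prop where
  transc : Transcendental K S.x
  mem_B1 : ∀ z : F, z ∈ S.B1 ↔ z ∈ S.O ∧ ∀ v : Place K F, 0 ≤ v.ord S.x → 0 ≤ v.ord z
  mem_B2 : ∀ z : F, z ∈ S.B2 ↔ z ∈ S.O ∧ ∀ v : Place K F, v.ord S.x ≤ 0 → 0 ≤ v.ord z

variable {S}

omit [IsAlgClosed K] [Nontrivial Ω] in
/-- The same description of the charts, in terms of integrality over `K[x]` and `K[x⁻¹]`. -/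
theorem ChartsByPlaces.of_isIntegral (hx : Transcendental K S.x)
    (h1 : ∀ z : F, z ∈ S.B1 ↔ z ∈ S.O ∧ IsIntegral (Algebra.adjoin K {S.x}) z)
    (h2 : ∀ z : F, z ∈ S.B2 ↔ z ∈ S.O ∧ IsIntegral (Algebra.adjoin K {S.x⁻¹}) z) :
    S.ChartsByPlaces K := by
  have hx' : Transcendental K S.x⁻¹ := by
    intro h
    apply hx
    have := h.inv
    rwa [inv_inv] at this
  have hf : FiniteDimensional (IntermediateField.adjoin K {S.x}) F := IsFF1.finite _ hx
  have hf' : FiniteDimensional (IntermediateField.adjoin K {S.x⁻¹}) F := IsFF1.finite _ hx'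
  refine ⟨hx, fun z => ?_, fun z => ?_⟩
  · rw [h1, ← S18.mem_chart_top_iff_isIntegral, S18.mem_chart_top_iff_places hx]
  · rw [h2, ← S18.mem_chart_top_iff_isIntegral, S18.mem_chart_top_iff_places hx']
    simp only [Place.ord_inv, Left.nonneg_neg_iff]

theorem ne_zero_of_red_eq_one {u : S.O} (hu : S.red u = 1) : (u : F) ≠ 0 := by
  intro h
  have : u = 0 := Subtype.ext h
  rw [this, map_zero] at hu
  exact zero_ne_one hu

/-- `H u e` is the unit ball of a Riemann-Roch space. -/
theorem mem_H_iff_riemannRochSpace (C : S.ChartsByPlaces K) {u : S.O} (hu : S.red u = 1)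
    (hkum : ∀ v : Place K F, (S.n : ℤ) ∣ v.ord (u : F)) (e : ℕ) (y : S.O) :
    y ∈ S.H u e ↔ (y : F) ∈ riemannRochSpace (kumDiv (K := K) S.n (u : F) S.x e) := by
  rw [mem_riemannRochSpace_kumDiv S.npos (ne_zero_of_red_eq_one hu) S.x_ne hkum]
  have h1 : (y : F) ^ S.n * u ∈ S.O := S.O.mul_mem (S.O.pow_mem y.2 _) u.2
  have h2 : (S.x⁻¹ ^ e * (y : F)) ^ S.n * u ∈ S.O :=
    S.O.mul_mem (S.O.pow_mem (S.O.mul_mem (S.O.pow_mem (S.B2_le S.xinv_mem) _) y.2) _) u.2
  show ((y : F) ^ S.n * u ∈ S.B1 ∧ (S.x⁻¹ ^ e * (y : F)) ^ S.n * u ∈ S.B2) ↔ _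
  rw [C.mem_B1, C.mem_B2]
  exact ⟨fun h => ⟨h.1.2, h.2.2⟩, fun h => ⟨⟨h1, h.1⟩, ⟨h2, h.2⟩⟩⟩

/-- The image of `Y u e` in `Ω` is the reduction of the unit ball of a Riemann-Roch space. -/
theorem map_Y_eq_redSpace (E : EchelonData K k S.O S.red) (C : S.ChartsByPlaces K) {u : S.O}
    (hu : S.red u = 1) (hkum : ∀ v : Place K F, (S.n : ℤ) ∣ v.ord (u : F)) (e : ℕ) :
    (S.Y u e).map S.bt1.val.toLinearMap
      = E.redSpace (riemannRochSpace (kumDiv (K := K) S.n (u : F) S.x e)) := by
  ext ω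
  constructor
  · rintro ⟨w, ⟨y, hy, hyw⟩, rfl⟩
    exact ⟨y, (mem_H_iff_riemannRochSpace C hu hkum e y).mp hy, hyw⟩
  · rintro ⟨y, hy, rfl⟩
    have hyH := (mem_H_iff_riemannRochSpace C hu hkum e y).mpr hy
    exact ⟨⟨S.red y, S.red_mem_bt1 hu hyH⟩, ⟨y, hyH, rfl⟩, rfl⟩

/-- The dimension of `Y u e`. -/
theorem finite_and_finrank_Y (E : EchelonData K k S.O S.red) (C : S.ChartsByPlaces K) {u : S.O}
    (hu : S.red u = 1) (hkum : ∀ v : Place K F, (S.n : ℤ) ∣ v.ord (u : F)) (e : ℕ) :
    Module.Finite k (S.Y u e) ∧ finrank k (S.Y u e)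
      = finrank K (riemannRochSpace (kumDiv (K := K) S.n (u : F) S.x e)) := by
  have hfin : Module.Finite K (riemannRochSpace (kumDiv (K := K) S.n (u : F) S.x e)) :=
    finite_L ⟨S.x, C.transc⟩ _
  have hinj : Function.Injective S.bt1.val.toLinearMap := Subtype.val_injective
  let φ := Submodule.equivMapOfInjective S.bt1.val.toLinearMap hinj (S.Y u e)
  have h1 := E.finite_redSpace (riemannRochSpace (kumDiv (K := K) S.n (u : F) S.x e))
  have h2 := E.finrank_redSpace (riemannRochSpace (kumDiv (K := K) S.n (u : F) S.x e))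
  rw [← map_Y_eq_redSpace E C hu hkum e] at h1 h2
  exact ⟨Module.Finite.equiv φ.symm, by rw [φ.finrank_eq, h2]⟩

/-- **The Riemann hypothesis of the abstract nodal setting holds for Kummer elements.** -/
theorem riem_of_kummer (E : EchelonData K k S.O S.red) (C : S.ChartsByPlaces K) {u : S.O}
    (hu : S.red u = 1) (hkum : ∀ v : Place K F, (S.n : ℤ) ∣ v.ord (u : F)) : S.Riem u := by
  obtain ⟨e₀, he₀⟩ := exists_finrank_kumDiv_eq (K := K) C.transc
  refine ⟨e₀, fun e he => ?_⟩
  have hkum1 : ∀ v : Place K F, (S.n : ℤ) ∣ v.ord (((1 : S.O) : S.O) : F) := by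
    intro v
    rw [Subring.coe_one, Place.ord_one]
    exact dvd_zero _
  obtain ⟨f1, d1⟩ := finite_and_finrank_Y E C (u := 1) (map_one _) hkum1 e
  obtain ⟨fu, du⟩ := finite_and_finrank_Y E C hu hkum e
  refine ⟨f1, fu, le_of_eq ?_⟩
  have e1 : finrank k (S.Y 1 e) = finrank k (S.Y ((1 : S.O) : F) e) := rfl
  rw [e1, d1, du]
  exact he₀ e he S.n S.npos _ _ hkum1 hkum

end Setup

end Fermat.Agent.S34.Nodal
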