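/-
C1 nodal core (architect helper201): the conductor.  Mathlib only.

`b` = reduction of chart 1 at level `M` (a `k`-algebra of functions), `Fr2 f (t) = f (t ^ Q)`,
`Q = q ^ 2`, `ψ` = inverse of the coefficientwise `Q`-Frobenius, so that `Fr2 f = (ψ f) ^ Q`.
`J` = ideal generated by all `f - Fr2 f`.  Then `b / J` is reduced, finite dimensional, hence `k ^ T`.
-/
import Mathlib

set_option autoImplicit false

namespace Fermat.Agent.S34.Nodal

open Polynomial

universe u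

/-- A ring in which every element is a `Q`-th power "functorially" is reduced:
`a = ψ a ^ Q = ψ (ψ a) ^ (Q ^ 2) = ...`, and `ψ ^ m a` is nilpotent of the same index as `a`. -/
theorem isReduced_of_pow_eq {S : Type*} [CommRing S] (ψ : S →+* S) (Q : ℕ) (hQ : 2 ≤ Q)
    (h : ∀ a, ψ a ^ Q = a) : IsReduced S := by
  have h1 : ∀ (m : ℕ) (a : S), (ψ^[m] a) ^ (Q ^ m) = a := by
    intro m
    induction m with
    | zero => intro a; simp
    | succ m ih =>
      intro a
      rw [Function.iterate_succ_apply', pow_succ, mul_comm, pow_mul, h, ih]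
  constructor
  rintro a ⟨r, hr⟩
  have h2 : (ψ^[r] a) ^ r = 0 := by
    rw [← iterate_map_pow, hr, iterate_map_zero]
  rw [← h1 r a]
  exact pow_eq_zero_of_le (Nat.lt_pow_self (by omega)).le h2

/-- The conductor ideal. -/
def condIdeal {b : Type*} [CommRing b] (Fr2 : b → b) : Ideal b :=
  Ideal.span (Set.range fun f => f - Fr2 f)

theorem Conductor.sub_mem {b : Type*} [CommRing b] (Fr2 : b → b) (f : b) :
    f - Fr2 f ∈ condIdeal Fr2 :=
  Ideal.subset_span ⟨f, rfl⟩

theorem isReduced_quotient_condIdeal {b : Type*} [CommRing b] (Fr2 ψ : b →+* b) (Q : ℕ)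
    (hQ : 2 ≤ Q) (hFr : ∀ f, Fr2 f = ψ f ^ Q) : IsReduced (b ⧸ condIdeal Fr2) := by
  have hle : condIdeal Fr2 ≤ (condIdeal Fr2).comap ψ := by
    unfold condIdeal
    rw [Ideal.span_le]
    rintro _ ⟨f, rfl⟩
    show ψ (f - Fr2 f) ∈ Ideal.span (Set.range fun f => f - Fr2 f)
    have : ψ (f - Fr2 f) = ψ f - Fr2 (ψ f) := by
      rw [map_sub, hFr f, map_pow, hFr (ψ f)]
    rw [this]
    exact Ideal.subset_span ⟨ψ f, rfl⟩
  refine isReduced_of_pow_eq (Ideal.quotientMap (condIdeal Fr2) ψ hle) Q hQ ?_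
  intro a
  obtain ⟨a, rfl⟩ := Ideal.Quotient.mk_surjective a
  rw [Ideal.quotientMap_mk, ← map_pow, ← hFr, eq_comm, Ideal.Quotient.eq]
  exact Conductor.sub_mem _ a

/-- `φ f ≡ f ^ Q` modulo the conductor ideal, `φ` a right inverse of `ψ`. -/
theorem sub_pow_mem_condIdeal {b : Type*} [CommRing b] (Fr2 ψ : b →+* b) (Q : ℕ)
    (hFr : ∀ f, Fr2 f = ψ f ^ Q) (f f' : b) (hf : ψ f' = f) : f' - f ^ Q ∈ condIdeal Fr2 := by
  rw [← hf, ← hFr]
  exact Conductor.sub_mem _ f'

/-- Finite dimensionality of a quotient. -/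
theorem finite_quotient {k b : Type*} [Field k] [CommRing b] [Algebra k b] (xb : b)
    (hfin : ∃ S : Finset b, ∀ y : b, y ∈ Submodule.span k {z : b | ∃ g ∈ S, ∃ a : ℕ, z = xb ^ a * g})
    (J : Ideal b) (P : k[X]) (hP : P ≠ 0) (hPJ : aeval xb P ∈ J) : Module.Finite k (b ⧸ J) := by
  classical
  obtain ⟨S, hS⟩ := hfin
  have hfinA : Module.Finite k (AdjoinRoot P) := (AdjoinRoot.powerBasis hP).finite
  have h0 : P.eval₂ (Algebra.ofId k (b ⧸ J)) (Ideal.Quotient.mk J xb) = 0 := by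
    have h1 : aeval (Ideal.Quotient.mk J xb) P = 0 := by
      have : Ideal.Quotient.mk J xb = Ideal.Quotient.mkₐ k J xb := rfl
      rw [this, aeval_algHom_apply]
      exact Ideal.Quotient.eq_zero_iff_mem.2 hPJ
    exact h1
  let φ : AdjoinRoot P →ₐ[k] (b ⧸ J) :=
    AdjoinRoot.liftAlgHom P (Algebra.ofId k (b ⧸ J)) (Ideal.Quotient.mk J xb) h0
  have hφ : φ (AdjoinRoot.root P) = Ideal.Quotient.mk J xb := AdjoinRoot.lift_root h0
  let Φ : (S → AdjoinRoot P) →ₗ[k] (b ⧸ J) :=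
    ∑ g : S, (LinearMap.mulRight k (Ideal.Quotient.mk J (g : b))) ∘ₗ φ.toLinearMap ∘ₗ
      LinearMap.proj g
  refine Module.Finite.of_surjective Φ ?_
  rw [← LinearMap.range_eq_top, eq_top_iff]
  have hle : Submodule.span k {z : b | ∃ g ∈ S, ∃ a : ℕ, z = xb ^ a * g} ≤
      (LinearMap.range Φ).comap (Ideal.Quotient.mkₐ k J).toLinearMap := by
    rw [Submodule.span_le]
    rintro _ ⟨g, hg, a, rfl⟩
    refine ⟨Pi.single ⟨g, hg⟩ (AdjoinRoot.root P ^ a), ?_⟩
    simp only [Φ, LinearMap.sum_apply, LinearMap.comp_apply, LinearMap.proj_apply,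
      LinearMap.mulRight_apply, AlgHom.toLinearMap_apply]
    rw [Finset.sum_eq_single ⟨g, hg⟩]
    · rw [Pi.single_eq_same, map_pow, hφ]
      simp
    · intro g' _ hne
      rw [Pi.single_eq_of_ne hne, map_zero, zero_mul]
    · intro h
      exact absurd (Finset.mem_univ _) h
  intro y _
  obtain ⟨y, rfl⟩ := Ideal.Quotient.mk_surjective y
  exact hle (hS y)

/-- A finite dimensional reduced algebra over an algebraically closed field is `k ^ T`. -/
theorem exists_ev {k : Type*} {b : Type u} [Field k] [IsAlgClosed k] [CommRing b] [Algebra k b]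
    (J : Ideal b) (hfin : Module.Finite k (b ⧸ J)) (hred : IsReduced (b ⧸ J)) :
    ∃ (T : Type u) (_ : Finite T) (ev : b →ₐ[k] (T → k)),
      Function.Surjective ev ∧ ∀ w, ev w = 0 ↔ w ∈ J := by
  classical
  have hart : IsArtinianRing (b ⧸ J) := IsArtinianRing.of_finite k (b ⧸ J)
  let R := b ⧸ J
  have hbij : ∀ I : MaximalSpectrum R, Function.Bijective (algebraMap k (R ⧸ I.asIdeal)) := by
    intro I
    have : IsDomain (R ⧸ I.asIdeal) := (Ideal.Quotient.isDomain_iff_prime _).2 I.isMaximal.isPrime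
    have : Module.Finite k (R ⧸ I.asIdeal) :=
      Module.Finite.of_surjective (Ideal.Quotient.mkₐ k I.asIdeal).toLinearMap
        Ideal.Quotient.mk_surjective
    exact IsAlgClosed.algebraMap_bijective_of_isIntegral
  let e : ∀ I : MaximalSpectrum R, k ≃ₐ[k] (R ⧸ I.asIdeal) := fun I =>
    AlgEquiv.ofBijective (Algebra.ofId k _) (hbij I)
  let ev : b →ₐ[k] (MaximalSpectrum R → k) :=
    AlgHom.pi fun I => ((e I).symm.toAlgHom.comp (Ideal.Quotient.mkₐ k I.asIdeal)).comp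
      (Ideal.Quotient.mkₐ k J)
  have hev : ∀ (w : b) (I : MaximalSpectrum R),
      e I (ev w I) = IsArtinianRing.equivPi R (Ideal.Quotient.mk J w) I := by
    intro w I
    show e I ((e I).symm _) = _
    rw [AlgEquiv.apply_symm_apply]
    rfl
  refine ⟨MaximalSpectrum R, inferInstance, ev, ?_, ?_⟩
  · intro c
    obtain ⟨y, hy⟩ := (IsArtinianRing.equivPi R).surjective (fun I => e I (c I))
    obtain ⟨w, rfl⟩ := Ideal.Quotient.mk_surjective y
    refine ⟨w, ?_⟩
    funext I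
    apply (e I).injective
    rw [hev, hy]
  · intro w
    have hz : Ideal.Quotient.mk J w = 0 ↔
        IsArtinianRing.equivPi R (Ideal.Quotient.mk J w) = 0 :=
      (map_eq_zero_iff _ (IsArtinianRing.equivPi R).injective).symm
    rw [← Ideal.Quotient.eq_zero_iff_mem, hz]
    constructor
    · intro h
      funext I
      rw [← hev, h]
      simp
    · intro h
      funext I
      apply (e I).injective
      rw [hev, h]
      simp

/-- `J × J` is contained in the special fibre `G ⊆ b × b`. -/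
theorem prod_mem_of_gens {k Ω₀ : Type*} [Field k] [CommRing Ω₀] [Algebra k Ω₀]
    (b : Subalgebra k Ω₀) (G : Subalgebra k (Ω₀ × Ω₀)) (Fr2 : b → b)
    (h1 : ∀ c : b, ∃ d : Ω₀, ((c : Ω₀), d) ∈ G) (h2 : ∀ c : b, ∃ d : Ω₀, (d, (c : Ω₀)) ∈ G)
    (g1 : ∀ f : b, (((f - Fr2 f : b) : Ω₀), (0 : Ω₀)) ∈ G)
    (g2 : ∀ f : b, ((0 : Ω₀), ((f - Fr2 f : b) : Ω₀)) ∈ G)
    (w1 w2 : b) (hw1 : w1 ∈ condIdeal Fr2) (hw2 : w2 ∈ condIdeal Fr2) :
    ((w1 : Ω₀), (w2 : Ω₀)) ∈ G := by
  have k1 : ∀ w ∈ condIdeal Fr2, (((w : b) : Ω₀), (0 : Ω₀)) ∈ G := by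
    intro w hw
    unfold condIdeal at hw
    induction hw using Submodule.span_induction with
    | mem x hx =>
      obtain ⟨f, rfl⟩ := hx
      exact g1 f
    | zero => exact G.zero_mem
    | add x y _ _ hx hy =>
      have := G.add_mem hx hy
      simpa using this
    | smul c x _ hx =>
      obtain ⟨d, hd⟩ := h1 c
      have := G.mul_mem hd hx
      simpa using this
  have k2 : ∀ w ∈ condIdeal Fr2, ((0 : Ω₀), ((w : b) : Ω₀)) ∈ G := by
    intro w hw
    unfold condIdeal at hw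
    induction hw using Submodule.span_induction with
    | mem x hx =>
      obtain ⟨f, rfl⟩ := hx
      exact g2 f
    | zero => exact G.zero_mem
    | add x y _ _ hx hy =>
      have := G.add_mem hx hy
      simpa using this
    | smul c x _ hx =>
      obtain ⟨d, hd⟩ := h2 c
      have := G.mul_mem hd hx
      simpa using this
  have := G.add_mem (k1 w1 hw1) (k2 w2 hw2)
  simpa using this

/-- The evaluation on `b × b`. -/
theorem exists_ev_prod {k : Type*} {Ω₀ : Type u} [Field k] [CommRing Ω₀] [Algebra k Ω₀]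
    (b : Subalgebra k Ω₀) {T : Type u} (ev : b →ₐ[k] (T → k)) :
    ∃ ev2 : (b.prod b : Subalgebra k (Ω₀ × Ω₀)) →ₐ[k] (T ⊕ T → k),
      ∀ (w : (b.prod b : Subalgebra k (Ω₀ × Ω₀))),
        (∀ t, ev2 w (Sum.inl t) = ev ⟨(w : Ω₀ × Ω₀).1, w.2.1⟩ t) ∧
          ∀ t, ev2 w (Sum.inr t) = ev ⟨(w : Ω₀ × Ω₀).2, w.2.2⟩ t := by
  let p1 : (b.prod b : Subalgebra k (Ω₀ × Ω₀)) →ₐ[k] b :=
    ((AlgHom.fst k Ω₀ Ω₀).comp (b.prod b).val).codRestrict b (fun w => w.2.1)
  let p2 : (b.prod b : Subalgebra k (Ω₀ × Ω₀)) →ₐ[k] b :=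
    ((AlgHom.snd k Ω₀ Ω₀).comp (b.prod b).val).codRestrict b (fun w => w.2.2)
  refine ⟨AlgHom.pi (fun s => Sum.casesOn s
    (fun t => (Pi.evalAlgHom k (fun _ : T => k) t).comp (ev.comp p1))
    (fun t => (Pi.evalAlgHom k (fun _ : T => k) t).comp (ev.comp p2))), ?_⟩
  intro w
  exact ⟨fun t => rfl, fun t => rfl⟩

end Fermat.Agent.S34.Nodal
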