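/-
C1 nodal core (architect helper201): how to obtain the field `lift` of `Setup`.
* `mem_of_coprime` : the chart-2 lemma (the points at `x = ∞` are not glued).
* `lift_of_H1`     : lifting of sections from `B12 = B1 + x ^ c * B2`.
Mathlib only.
-/
import Mathlib

set_option autoImplicit false

namespace Fermat.Agent.S34.Nodal

open Polynomial

/-- **Chart-2 lemma.**  `G2 ⊆ bt2` subalgebras, `s ∈ G2`, `P(s) * bt2 ⊆ G2` with `P(0) ≠ 0`.
Then `w ∈ bt2`, `s ^ j * w ∈ G2` imply `w ∈ G2`.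
Proof: `X ^ j` and `P` are coprime, `U * X ^ j + V * P = 1`, `w = U(s) (s ^ j w) + V(s) (P(s) w)`. -/
theorem mem_of_coprime {k Ω : Type*} [Field k] [CommRing Ω] [Algebra k Ω] (G2 bt2 : Subalgebra k Ω)
    (s : Ω) (hs : s ∈ G2) (P : k[X]) (hP0 : P.eval 0 ≠ 0)
    (hcond : ∀ w ∈ bt2, aeval s P * w ∈ G2) (w : Ω) (hw : w ∈ bt2) (j : ℕ)
    (hj : s ^ j * w ∈ G2) : w ∈ G2 := by
  have hXP : IsCoprime (X : k[X]) P := by
    refine ⟨-(C (P.eval 0)⁻¹ * P.divX), C (P.eval 0)⁻¹, ?_⟩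
    have h1 : P = P.divX * X + C (P.eval 0) := by
      rw [← coeff_zero_eq_eval_zero]; exact (divX_mul_X_add P).symm
    calc -(C (P.eval 0)⁻¹ * P.divX) * X + C (P.eval 0)⁻¹ * P
        = C (P.eval 0)⁻¹ * (P - P.divX * X) := by ring
      _ = C (P.eval 0)⁻¹ * C (P.eval 0) := by
          congr 1
          nth_rewrite 1 [h1]
          ring
      _ = 1 := by rw [← C_mul, inv_mul_cancel₀ hP0, C_1]
  obtain ⟨U, V, hUV⟩ := hXP.pow_left (m := j)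
  have hmem : ∀ Q : k[X], aeval s Q ∈ G2 := fun Q => by
    have := aeval_subalgebra_coe Q G2 ⟨s, hs⟩
    rw [← this]
    exact (aeval (⟨s, hs⟩ : G2) Q).2
  have h1 := congrArg (aeval s) hUV
  simp only [map_add, map_mul, map_pow, aeval_X, map_one] at h1
  have : w = aeval s U * (s ^ j * w) + aeval s V * (aeval s P * w) := by
    calc w = 1 * w := (one_mul w).symm
      _ = (aeval s U * s ^ j + aeval s V * aeval s P) * w := by rw [h1]
      _ = _ := by ring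
  rw [this]
  exact G2.add_mem (G2.mul_mem (hmem U) hj) (G2.mul_mem (hmem V) (hcond w hw))

/-- **Lifting.**  -/
theorem lift_of_H1 {F Ω : Type*} [Field F] [CommRing Ω] (O : Subring F) (red : O →+* Ω)
    (B1 B2 B12 : Subring F) (h1 : B1 ≤ B12) (h2 : B2 ≤ B12) (h12 : B12 ≤ O)
    (x : F) (hx : x ≠ 0) (hx1 : x ∈ B1) (hx2 : x⁻¹ ∈ B2)
    (hdiv : ∀ d : O, (d : F) ∈ B12 → red d = 0 →
      ∃ p z : O, (p : F) ∈ B1 ∧ (p : F) ∈ B2 ∧ red p = 0 ∧ (z : F) ∈ B12 ∧ d = p * z)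
    (c : ℕ) (hH1 : ∀ z ∈ B12, ∃ z1 ∈ B1, ∃ z2 ∈ B2, z = z1 + x ^ c * z2)
    (e : ℕ) (he : c ≤ e) (b b2 : O) (hb : (b : F) ∈ B1) (hb2 : (b2 : F) ∈ B2)
    (hred : red b2 = red ⟨x⁻¹, h12 (h2 hx2)⟩ ^ e * red b) :
    ∃ y : O, (y : F) ∈ B1 ∧ x⁻¹ ^ e * (y : F) ∈ B2 ∧ red y = red b := by
  set xi : O := ⟨x⁻¹, h12 (h2 hx2)⟩ with hxi
  set xO : O := ⟨x, h12 (h1 hx1)⟩ with hxO
  have hxx : xO * xi = 1 := Subtype.ext (mul_inv_cancel₀ hx)
  obtain ⟨p, z, hp1, hp2, hp0, hz, hd⟩ := hdiv (b - xO ^ e * b2)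
    (by
      push_cast
      exact B12.sub_mem (h1 hb) (B12.mul_mem (B12.pow_mem (h1 hx1) _) (h2 hb2)))
    (by
      rw [map_sub, map_mul, map_pow, hred, ← mul_assoc, ← mul_pow, ← map_mul, hxx, map_one,
        one_pow, one_mul, sub_self])
  obtain ⟨z1, hz1, z2, hz2, hzz⟩ := hH1 z hz
  refine ⟨b - p * ⟨z1, h12 (h1 hz1)⟩, ?_, ?_, ?_⟩
  · push_cast
    exact B1.sub_mem hb (B1.mul_mem hp1 hz1)
  · have hdF : (b : F) - x ^ e * (b2 : F) = (p : F) * (z : F) := by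
      have := congrArg (Subtype.val : O → F) hd
      simpa using this
    obtain ⟨r, rfl⟩ := Nat.exists_eq_add_of_le he
    have key : x⁻¹ ^ (c + r) * (((b - p * ⟨z1, h12 (h1 hz1)⟩ : O)) : F) =
        (b2 : F) + (p : F) * (x⁻¹ ^ r * z2) := by
      push_cast
      have hb' : (b : F) = x ^ (c + r) * (b2 : F) + (p : F) * (z1 + x ^ c * z2) := by
        rw [← hzz, ← hdF]; ring
      rw [hb']
      have e1 : x⁻¹ ^ c * x ^ c = 1 := by rw [← mul_pow, inv_mul_cancel₀ hx, one_pow]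
      have e2 : x⁻¹ ^ r * x ^ r = 1 := by rw [← mul_pow, inv_mul_cancel₀ hx, one_pow]
      calc x⁻¹ ^ (c + r) * (x ^ (c + r) * (b2 : F) + (p : F) * (z1 + x ^ c * z2) - (p : F) * z1)
          = (x⁻¹ ^ c * x ^ c) * (x⁻¹ ^ r * x ^ r) * (b2 : F)
            + (x⁻¹ ^ c * x ^ c) * ((p : F) * (x⁻¹ ^ r * z2)) := by
            rw [pow_add, pow_add]; ring
        _ = _ := by rw [e1, e2]; ring
    rw [key]
    exact B2.add_mem hb2 (B2.mul_mem hp2 (B2.mul_mem (B2.pow_mem hx2 _) hz2))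
  · rw [map_sub, map_mul, hp0, zero_mul, sub_zero]

end Fermat.Agent.S34.Nodal
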