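/-
C1 nodal core, Layer R (architect helper201; proofs helper267).  Pure linear algebra over a field `k`.

`G` a unital subalgebra of `k ^ T` (`T` finite), `W` a subspace with `w ^ n ∈ G` for all `w ∈ W` and
`dim G ≤ dim W`.  Then `W = l * G` for some `l ∈ W` without zero coordinate.

Proof sketch.  `z ~ z'` iff all `g ∈ G` take the same value at `z`, `z'`.  (1) `G` is the set of all
functions constant on the classes (Lagrange interpolation: the indicator of a class is a product of
`(g - g z') / (g z - g z')`).  (2) for a class `β` the projection `W_β` of `W` to `k ^ β` has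
dimension `≤ 1` and its nonzero elements have no zero coordinate: `w ^ n` is constant on `β`, so a
`w` with one zero coordinate in `β` vanishes on `β`; two independent vectors would have a nontrivial
combination with a zero coordinate.  (3) `dim W ≤ ∑_β dim W_β ≤ #classes = dim G ≤ dim W`, so
`W = ∏ W_β` and all `W_β` are lines.
-/
import Mathlib

set_option autoImplicit false

namespace Fermat.Agent.S34.Nodal

variable {k : Type*} [Field k] {T : Type*} [Finite T]

omit [Finite T] in
/-- The level classes of a subalgebra of `k ^ T`. -/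
def LemmaR_setoid (G : Subalgebra k (T → k)) : Setoid T where
  r z z' := ∀ g ∈ G, g z = g z'
  iseqv := ⟨fun _ _ _ => rfl, fun h g hg => (h g hg).symm,
    fun h1 h2 g hg => (h1 g hg).trans (h2 g hg)⟩

omit [Finite T] in
theorem LemmaR_out_rel (G : Subalgebra k (T → k)) (t : T) :
    ∀ g ∈ G, g (Quotient.out (Quotient.mk (LemmaR_setoid G) t)) = g t :=
  Quotient.exact (s := LemmaR_setoid G) (Quotient.out_eq _)

omit [Finite T] in
/-- separating elements. -/
theorem LemmaR_exists_sep (G : Subalgebra k (T → k)) (z z' : T) :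
    ∃ e ∈ G, e z = 1 ∧ ((¬ ∀ g ∈ G, g z = g z') → e z' = 0) := by
  by_cases h : ∀ g ∈ G, g z = g z'
  · exact ⟨1, G.one_mem, rfl, fun h' => absurd h h'⟩
  · push Not at h
    obtain ⟨g, hg, hne⟩ := h
    refine ⟨(g z - g z')⁻¹ • (g - algebraMap k (T → k) (g z')), ?_, ?_, ?_⟩
    · exact G.smul_mem (G.sub_mem hg (G.algebraMap_mem _)) _
    · simp [inv_mul_cancel₀ (sub_ne_zero.mpr hne)]
    · intro _
      simp

/-- the indicator function of a class. -/
theorem LemmaR_exists_indicator (G : Subalgebra k (T → k)) (z : T) :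
    ∃ d ∈ G, ∀ t, ((∀ g ∈ G, g z = g t) → d t = 1) ∧ ((¬ ∀ g ∈ G, g z = g t) → d t = 0) := by
  classical
  have := Fintype.ofFinite T
  choose e heG he1 he0 using LemmaR_exists_sep G z
  have hdG : (∏ z', e z') ∈ G := G.prod_mem fun z' _ => heG z'
  have hdz : (∏ z', e z') z = 1 := by
    rw [Finset.prod_apply]
    exact Finset.prod_eq_one fun z' _ => he1 z'
  refine ⟨∏ z', e z', hdG, fun t => ⟨fun h => ?_, fun h => ?_⟩⟩
  · rw [← h _ hdG, hdz]
  · rw [Finset.prod_apply]
    exact Finset.prod_eq_zero (Finset.mem_univ t) (he0 t h)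

/-- A subalgebra of `k ^ T` contains every function which is constant on its level classes. -/
theorem mem_of_const_on_classes (G : Subalgebra k (T → k)) (f : T → k)
    (hf : ∀ z z' : T, (∀ g ∈ G, g z = g z') → f z = f z') : f ∈ G := by
  classical
  have := Fintype.ofFinite T
  choose d hdG hd using LemmaR_exists_indicator G
  have : Fintype (Quotient (LemmaR_setoid G)) := Fintype.ofFinite _
  have key : f = ∑ c : Quotient (LemmaR_setoid G), f c.out • d c.out := by
    funext t
    rw [Finset.sum_apply, Finset.sum_eq_single (Quotient.mk (LemmaR_setoid G) t)]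
    · rw [Pi.smul_apply, (hd _ t).1 (LemmaR_out_rel G t), smul_eq_mul, mul_one]
      exact (hf _ _ (LemmaR_out_rel G t)).symm
    · intro c _ hc
      rw [Pi.smul_apply, (hd _ t).2, smul_zero]
      intro h
      apply hc
      rw [← Quotient.out_eq c]
      exact Quotient.sound (s := LemmaR_setoid G) h
    · intro h
      exact absurd (Finset.mem_univ _) h
  rw [key]
  exact G.sum_mem fun c _ => G.smul_mem (hdG _) _

/-- A subalgebra of `k ^ T` is stable under inversion of invertible elements. -/
theorem exists_mul_eq_one (G : Subalgebra k (T → k)) (g : T → k) (hg : g ∈ G)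
    (h0 : ∀ t, g t ≠ 0) : ∃ g' ∈ G, g * g' = 1 := by
  have hinj : Function.Injective (LinearMap.mulLeft k (⟨g, hg⟩ : G)) := by
    intro a b hab
    have h1 : g * (a : T → k) = g * (b : T → k) := congrArg Subtype.val hab
    apply Subtype.ext
    funext t
    have h2 := congrFun h1 t
    exact mul_left_cancel₀ (h0 t) h2
  obtain ⟨g', hg'⟩ := (LinearMap.injective_iff_surjective.mp hinj) 1
  exact ⟨g', g'.2, congrArg Subtype.val hg'⟩

/-- **Lemma R.** -/
theorem exists_twist (n : ℕ) (hn : 0 < n) (G : Subalgebra k (T → k)) (W : Submodule k (T → k))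
    (hW : ∀ w ∈ W, w ^ n ∈ G) (hdim : Module.finrank k G ≤ Module.finrank k W) :
    ∃ l ∈ W, (∀ t, l t ≠ 0) ∧ ∀ w, w ∈ W ↔ ∃ g ∈ G, w = l * g := by
  classical
  have := Fintype.ofFinite T
  let Q := Quotient (LemmaR_setoid G)
  have : Fintype Q := Fintype.ofFinite _
  let mk : T → Q := Quotient.mk (LemmaR_setoid G)
  have hout : ∀ t, ∀ g ∈ G, g (mk t).out = g t := LemmaR_out_rel G
  -- vanishing propagates along classes
  have hP : ∀ w ∈ W, ∀ z z' : T, (∀ g ∈ G, g z = g z') → w z = 0 → w z' = 0 := by
    intro w hw z z' hzz hz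
    have h1 := hzz _ (hW w hw)
    rw [Pi.pow_apply, Pi.pow_apply, hz, zero_pow hn.ne'] at h1
    exact pow_eq_zero_iff hn.ne' |>.mp h1.symm
  -- restriction to representatives
  let res : (T → k) →ₗ[k] (Q → k) := LinearMap.funLeft k k (fun c : Q => c.out)
  have hres : ∀ (w : T → k) (c : Q), res w c = w c.out := fun _ _ => rfl
  let r : W →ₗ[k] (Q → k) := res.comp W.subtype
  let ρ : G →ₗ[k] (Q → k) := res.comp (Subalgebra.toSubmodule G).subtype
  have hrinj : Function.Injective r := by
    rw [← LinearMap.ker_eq_bot, LinearMap.ker_eq_bot']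
    intro w hw
    apply Subtype.ext
    funext t
    exact hP w w.2 _ _ (hout t) (congrFun hw (mk t))
  have hρinj : Function.Injective ρ := by
    rw [← LinearMap.ker_eq_bot, LinearMap.ker_eq_bot']
    intro g hg
    apply Subtype.ext
    funext t
    have h1 : (g : T → k) (mk t).out = 0 := congrFun hg (mk t)
    rw [← hout t g g.2, h1]
    rfl
  have hρsurj : Function.Surjective ρ := by
    intro φ
    have hmem : (fun t => φ (mk t)) ∈ G := by
      refine mem_of_const_on_classes G _ fun z z' h => ?_
      have : mk z = mk z' := Quotient.sound (s := LemmaR_setoid G) h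
      show φ (mk z) = φ (mk z')
      rw [this]
    refine ⟨⟨_, hmem⟩, ?_⟩
    funext c
    show φ (mk c.out) = φ c
    rw [show mk c.out = c from Quotient.out_eq c]
  have hG : Module.finrank k G = Module.finrank k (Q → k) :=
    (LinearEquiv.ofBijective ρ ⟨hρinj, hρsurj⟩).finrank_eq
  have hWQ : Module.finrank k W = Module.finrank k (Q → k) :=
    le_antisymm (LinearMap.finrank_le_finrank_of_injective hrinj) (hG ▸ hdim)
  have hrsurj : Function.Surjective r :=
    (LinearMap.injective_iff_surjective_of_finrank_eq_finrank hWQ).mp hrinj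
  obtain ⟨l, hl⟩ := hrsurj (fun _ => 1)
  have hl1 : ∀ c : Q, (l : T → k) c.out = 1 := fun c => congrFun hl c
  have hl0 : ∀ t, (l : T → k) t ≠ 0 := by
    intro t ht
    have h1 := hP l l.2 t (mk t).out (fun g hg => (hout t g hg).symm) ht
    rw [hl1] at h1
    exact one_ne_zero h1
  have hK : ∀ w ∈ W, ∀ t, w t = w (mk t).out * (l : T → k) t := by
    intro w hw t
    have hmem : w - w (mk t).out • (l : T → k) ∈ W := W.sub_mem hw (W.smul_mem _ l.2)
    have h1 := hP _ hmem (mk t).out t (hout t) (by
      rw [Pi.sub_apply, Pi.smul_apply, hl1, smul_eq_mul, mul_one, sub_self])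
    rw [Pi.sub_apply, Pi.smul_apply, smul_eq_mul, sub_eq_zero] at h1
    exact h1
  refine ⟨l, l.2, hl0, fun w => ⟨fun hw => ?_, ?_⟩⟩
  · refine ⟨fun t => w (mk t).out, ?_, ?_⟩
    · refine mem_of_const_on_classes G _ fun z z' h => ?_
      have : mk z = mk z' := Quotient.sound (s := LemmaR_setoid G) h
      show w (mk z).out = w (mk z').out
      rw [this]
    · funext t
      rw [Pi.mul_apply, mul_comm]
      exact hK w hw t
  · rintro ⟨g, hg, rfl⟩
    obtain ⟨w', hw'⟩ := hrsurj (fun c => g c.out)
    have hw'1 : ∀ c : Q, (w' : T → k) c.out = g c.out := fun c => congrFun hw' c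
    have : (l : T → k) * g = w' := by
      funext t
      rw [Pi.mul_apply, hK w' w'.2 t, hw'1, hout t g hg, mul_comm]
    rw [this]
    exact w'.2

end Fermat.Agent.S34.Nodal
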