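/-
C1 nodal core, Layer R, the count (architect helper201).

`S` a commutative `k`-algebra (the normalisation `b × b` of the special fibre of chart 1),
`G ⊆ S` a subalgebra (the special fibre), `ev : S → k ^ T` an algebra hom with kernel inside `G`
(the conductor), `Lt` a subspace (a window: bounded poles), `Y1 = G ∩ Lt`, `Yu ⊆ Lt` a subspace with
`w ^ n ∈ G` and `dim Y1 ≤ dim Yu`.
-/
import Fermat.Agent.S34.Nodal.LemmaR

set_option autoImplicit false

namespace Fermat.Agent.S34.Nodal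

open Module

variable {k : Type*} [Field k] {T : Type*} [Finite T] {S : Type*} [CommRing S] [Algebra k S]

/-- The hypotheses of the count, for a subspace `Yu`. -/
structure CountHyp (n : ℕ) (G : Subalgebra k S) (ev : S →ₐ[k] (T → k)) (Lt Y1 Yu : Submodule k S) :
    Prop where
  npos : 0 < n
  ker_le : ∀ w, ev w = 0 → w ∈ G
  Y1_le_G : ∀ w ∈ Y1, w ∈ G
  Y1_le : Y1 ≤ Lt
  ker_Lt : ∀ w ∈ Lt, ev w = 0 → w ∈ Y1
  ev_Y1 : ∀ g ∈ G, ∃ w ∈ Y1, ev w = ev g
  Yu_le : Yu ≤ Lt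
  pow_mem : ∀ w ∈ Yu, w ^ n ∈ G
  fin1 : Module.Finite k Y1
  finu : Module.Finite k Yu
  dim_le : finrank k Y1 ≤ finrank k Yu

variable {n : ℕ} {G : Subalgebra k S} {ev : S →ₐ[k] (T → k)} {Lt Y1 Yu Yu' : Submodule k S}

/-- rank-nullity for the restriction of a linear map to a subspace -/
theorem Count.finrank_map_add {V V' : Type*} [AddCommGroup V] [Module k V] [AddCommGroup V']
    [Module k V'] (e : V →ₗ[k] V') (Y : Submodule k V) [Module.Finite k Y] :
    finrank k (Y.map e) + finrank k ↥(Y ⊓ LinearMap.ker e) = finrank k Y := by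
  have h := LinearMap.finrank_range_add_finrank_ker (e.domRestrict Y)
  rw [LinearMap.range_domRestrict, LinearMap.ker_domRestrict] at h
  rw [← h, ← Submodule.map_comap_subtype, Submodule.finrank_map_subtype_eq]

/-- Structure of `Yu`: it contains the conductor part of the window and its image under `ev` is a
twist of the image of `G`. -/
theorem CountHyp.structure (H : CountHyp n G ev Lt Y1 Yu) :
    (∀ w ∈ Lt, ev w = 0 → w ∈ Yu) ∧
      ∃ l ∈ Yu, (∀ t, ev l t ≠ 0) ∧ (∀ w ∈ Yu, ∃ g ∈ G, ev w = ev l * ev g) ∧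
        ∀ g ∈ G, ∃ w ∈ Yu, ev w = ev l * ev g := by
  have := H.fin1
  have := H.finu
  set e : S →ₗ[k] (T → k) := ev.toLinearMap with he
  have hev : ∀ w, e w = ev w := fun _ => rfl
  set Gb : Subalgebra k (T → k) := G.map ev with hGb
  have hW1 : Y1.map e = Subalgebra.toSubmodule Gb := by
    ext f
    constructor
    · rintro ⟨w, hw, rfl⟩
      exact ⟨w, H.Y1_le_G w hw, rfl⟩
    · rintro ⟨g, hg, rfl⟩
      obtain ⟨w, hw, hwg⟩ := H.ev_Y1 g hg
      exact ⟨w, hw, hwg⟩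
  have hK : Yu ⊓ LinearMap.ker e ≤ Y1 ⊓ LinearMap.ker e := by
    rintro w ⟨hw, hw0⟩
    exact ⟨H.ker_Lt w (H.Yu_le hw) hw0, hw0⟩
  have hfinK1 : Module.Finite k ↥(Y1 ⊓ LinearMap.ker e) :=
    Submodule.finiteDimensional_of_le inf_le_left
  have hKle : finrank k ↥(Yu ⊓ LinearMap.ker e) ≤ finrank k ↥(Y1 ⊓ LinearMap.ker e) :=
    Submodule.finrank_mono hK
  have hu := Count.finrank_map_add e Yu
  have h1 := Count.finrank_map_add e Y1
  have hGfin : finrank k (Y1.map e) = finrank k Gb := by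
    rw [hW1]
    rfl
  have hdim : finrank k Gb ≤ finrank k (Yu.map e) := by
    have := H.dim_le
    omega
  have hpow : ∀ w ∈ Yu.map e, w ^ n ∈ Gb := by
    rintro _ ⟨w, hw, rfl⟩
    exact ⟨w ^ n, H.pow_mem w hw, map_pow ev w n⟩
  obtain ⟨l0, hl0W, hl0, hl0iff⟩ := exists_twist n H.npos Gb (Yu.map e) hpow hdim
  -- the dimension of the twist
  have hinj : Function.Injective (LinearMap.mulLeft k l0) := by
    intro a b hab
    funext t
    have := congrFun hab t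
    simp only [LinearMap.mulLeft_apply, Pi.mul_apply] at this
    exact mul_left_cancel₀ (hl0 t) this
  have hWmap : Yu.map e = (Subalgebra.toSubmodule Gb).map (LinearMap.mulLeft k l0) := by
    ext f
    rw [hl0iff]
    constructor
    · rintro ⟨g, hg, rfl⟩
      exact ⟨g, hg, rfl⟩
    · rintro ⟨g, hg, rfl⟩
      exact ⟨g, hg, rfl⟩
  have hWfin : finrank k (Yu.map e) = finrank k Gb := by
    rw [hWmap]
    exact (Submodule.equivMapOfInjective _ hinj (Subalgebra.toSubmodule Gb)).finrank_eq.symm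
  have hKeq : Yu ⊓ LinearMap.ker e = Y1 ⊓ LinearMap.ker e := by
    apply Submodule.eq_of_le_of_finrank_le hK
    have := H.dim_le
    omega
  obtain ⟨l, hl, hll0⟩ := hl0W
  refine ⟨?_, l, hl, ?_, ?_, ?_⟩
  · intro w hw hw0
    have : w ∈ Y1 ⊓ LinearMap.ker e := ⟨H.ker_Lt w hw hw0, hw0⟩
    rw [← hKeq] at this
    exact this.1
  · intro t
    have : ev l = l0 := hll0
    rw [this]
    exact hl0 t
  · intro w hw
    obtain ⟨g', ⟨g, hg, rfl⟩, hwg⟩ := (hl0iff (e w)).mp ⟨w, hw, rfl⟩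
    refine ⟨g, hg, ?_⟩
    have h2 : ev l = l0 := hll0
    rw [h2]
    exact hwg
  · intro g hg
    obtain ⟨w, hw, hwg⟩ := (hl0iff (l0 * ev g)).mpr ⟨ev g, ⟨g, hg, rfl⟩, rfl⟩
    refine ⟨w, hw, ?_⟩
    have h2 : ev l = l0 := hll0
    rw [h2]
    exact hwg

/-- If `Yu` contains an element with `ev = 1`, it contains `Y1`. -/
theorem CountHyp.le_of_ev_eq_one (H : CountHyp n G ev Lt Y1 Yu) {p : S} (hp : p ∈ Yu)
    (hp1 : ev p = 1) : Y1 ≤ Yu := by
  obtain ⟨hker, l, -, -, h1, h2⟩ := H.structure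
  obtain ⟨g0, hg0, hpg⟩ := h1 p hp
  rw [hp1] at hpg
  intro w hw
  obtain ⟨w', hw', hww'⟩ := h2 (g0 * w) (G.mul_mem hg0 (H.Y1_le_G w hw))
  have hev : ev w' = ev w := by
    rw [hww', map_mul, ← mul_assoc, ← hpg, one_mul]
  have hsub : w - w' ∈ Yu := by
    apply hker
    · exact Lt.sub_mem (H.Y1_le hw) (H.Yu_le hw')
    · rw [map_sub, hev, sub_self]
  have := Yu.add_mem hw' hsub
  rwa [add_sub_cancel] at this

/-- Two subspaces whose product lies in `G`. -/
theorem CountHyp.exists_pair (H : CountHyp n G ev Lt Y1 Yu) (H' : CountHyp n G ev Lt Y1 Yu')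
    (hmul : ∀ w ∈ Yu, ∀ w' ∈ Yu', w * w' ∈ G) :
    ∃ y ∈ Yu, ∃ y' ∈ Yu', ev y * ev y' = 1 := by
  obtain ⟨-, l, hl, hl0, -, -⟩ := H.structure
  obtain ⟨-, l', hl', hl0', -, h2'⟩ := H'.structure
  have hmem : ev (l * l') ∈ G.map ev := ⟨l * l', hmul l hl l' hl', rfl⟩
  have hne : ∀ t, ev (l * l') t ≠ 0 := by
    intro t
    rw [map_mul, Pi.mul_apply]
    exact mul_ne_zero (hl0 t) (hl0' t)
  obtain ⟨g', ⟨g, hg, rfl⟩, hgg⟩ := exists_mul_eq_one (G.map ev) _ hmem hne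
  obtain ⟨y', hy', hyy'⟩ := h2' g hg
  refine ⟨l, hl, y', hy', ?_⟩
  rw [hyy', ← mul_assoc, ← map_mul]
  exact hgg

end Fermat.Agent.S34.Nodal
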