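/-
C1 nodal core (architect helper201): reduction of the unit ball of a finite dimensional space of
"series" keeps the dimension.  Mathlib only.  `ι` = set of coefficient positions.
-/
import Mathlib

set_option autoImplicit false

namespace Fermat.Agent.S34.Nodal

open Module

variable {K : Type*} [Field K] (A : ValuationSubring K) {ι : Type*}

/-- Independent reductions have independent lifts.
Proof: scale a nontrivial relation so that all coefficients are in `A` and one is `1`; reduce. -/
theorem linearIndependent_of_residue {m : Type*} [Finite m] (v : m → ι → A)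
    (h : LinearIndependent (IsLocalRing.ResidueField A)
      (fun (i : m) (j : ι) => IsLocalRing.residue A (v i j))) :
    LinearIndependent K (fun (i : m) (j : ι) => ((v i j : A) : K)) := by
  classical
  cases nonempty_fintype m
  rw [Fintype.linearIndependent_iff] at h ⊢
  intro c hc
  by_contra hcon
  push Not at hcon
  obtain ⟨i1, hi1⟩ := hcon
  obtain ⟨i0, -, hmax⟩ := Finset.exists_max_image Finset.univ (fun i => A.valuation (c i))
    ⟨i1, Finset.mem_univ i1⟩
  have hc0 : c i0 ≠ 0 := by
    intro h0
    have h1 := hmax i1 (Finset.mem_univ _)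
    rw [h0, map_zero] at h1
    exact hi1 ((map_eq_zero _).1 (le_antisymm h1 zero_le))
  have hmem : ∀ i, c i / c i0 ∈ A := by
    intro i
    rw [← A.valuation_le_one_iff, map_div₀]
    exact div_le_one_of_le₀ (hmax i (Finset.mem_univ _)) zero_le
  let d : m → A := fun i => ⟨c i / c i0, hmem i⟩
  have hrel : ∀ j, ∑ i, d i * v i j = 0 := by
    intro j
    apply Subtype.val_injective
    have hj := congrFun hc j
    simp only [Finset.sum_apply, Pi.smul_apply, smul_eq_mul, Pi.zero_apply] at hj
    push_cast
    have : ∑ i, (c i / c i0) * ((v i j : A) : K) = (∑ i, c i * ((v i j : A) : K)) / c i0 := by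
      rw [Finset.sum_div]
      exact Finset.sum_congr rfl fun i _ => by ring
    simp only [d]
    rw [this, hj, zero_div]
  have hres := h (fun i => IsLocalRing.residue A (d i)) (by
    funext j
    simp only [Finset.sum_apply, Pi.smul_apply, smul_eq_mul, Pi.zero_apply]
    rw [← map_zero (IsLocalRing.residue A), ← hrel j, map_sum]
    exact Finset.sum_congr rfl fun i _ => (map_mul _ _ _).symm) i0
  have hd1 : d i0 = 1 := Subtype.val_injective (by simp [d, div_self hc0])
  rw [hd1, map_one] at hres
  exact one_ne_zero hres

theorem Echelon.aux (d : ℕ) : ∀ (V : Submodule K (ι → K)) [FiniteDimensional K V],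
    finrank K V = d → (∀ f ∈ V, f ≠ 0 → ∃ i, f i ≠ 0 ∧ ∀ j, f j / f i ∈ A) →
    ∃ v : Fin d → ι → A, (∀ i, (fun j => ((v i j : A) : K)) ∈ V) ∧
      LinearIndependent (IsLocalRing.ResidueField A)
        (fun (i : Fin d) (j : ι) => IsLocalRing.residue A (v i j)) := by
  induction d with
  | zero =>
    intro V _ _ _
    exact ⟨Fin.elim0, fun i => i.elim0, linearIndependent_empty_type⟩
  | succ d ih =>
    intro V _ hV hatt
    have hVne : V ≠ ⊥ := by
      rintro rfl
      simp at hV
    obtain ⟨f, hfV, hf0⟩ := Submodule.exists_mem_ne_zero_of_ne_bot hVne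
    obtain ⟨i, hfi, hfA⟩ := hatt f hfV hf0
    -- the normalised pivot vector
    let f' : ι → A := fun j => ⟨f j / f i, hfA j⟩
    have hf'V : (fun j => ((f' j : A) : K)) ∈ V := by
      have : (fun j => ((f' j : A) : K)) = (f i)⁻¹ • f := by
        funext j
        simp [f', div_eq_inv_mul]
      rw [this]
      exact V.smul_mem _ hfV
    have hf'i : f' i = 1 := Subtype.val_injective (by simp [f', div_self hfi])
    -- the hyperplane
    let φ : V →ₗ[K] K := (LinearMap.proj i).domRestrict V
    let V' : Submodule K (ι → K) := (LinearMap.ker φ).map V.subtype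
    have hmemV' : ∀ g, g ∈ V' ↔ g ∈ V ∧ g i = 0 := by
      intro g
      constructor
      · rintro ⟨⟨g', hg'⟩, hker, rfl⟩
        exact ⟨hg', hker⟩
      · rintro ⟨hg, hgi⟩
        exact ⟨⟨g, hg⟩, hgi, rfl⟩
    have hsurj : LinearMap.range φ = ⊤ := by
      rw [LinearMap.range_eq_top]
      intro a
      refine ⟨a • ⟨_, hf'V⟩, ?_⟩
      simp [φ, hf'i]
    have hfin' : finrank K V' = d := by
      have h1 := LinearMap.finrank_range_add_finrank_ker φ
      rw [hsurj, finrank_top, finrank_self, hV] at h1
      have h2 : finrank K V' = finrank K (LinearMap.ker φ) :=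
        Submodule.finrank_map_subtype_eq V (LinearMap.ker φ)
      omega
    have hle : V' ≤ V := fun g hg => ((hmemV' g).1 hg).1
    have : FiniteDimensional K V' := Submodule.finiteDimensional_of_le hle
    obtain ⟨v', hv'V, hv'li⟩ := ih V' hfin' (fun g hg hg0 => hatt g (hle hg) hg0)
    refine ⟨Fin.cons f' v', ?_, ?_⟩
    · intro k
      refine Fin.cases ?_ (fun k => ?_) k
      · simpa using hf'V
      · simpa using hle (hv'V k)
    · have e : (fun (k : Fin (d + 1)) (j : ι) =>
          IsLocalRing.residue A ((Fin.cons f' v' : Fin (d + 1) → ι → A) k j)) =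
          Fin.cons (fun j => IsLocalRing.residue A (f' j))
            (fun (k : Fin d) (j : ι) => IsLocalRing.residue A (v' k j)) := by
        funext k
        refine Fin.cases ?_ (fun k => ?_) k
        · simp
        · simp
      rw [e, linearIndependent_finCons]
      refine ⟨hv'li, fun hmem => ?_⟩
      have hspan : Submodule.span (IsLocalRing.ResidueField A)
          (Set.range fun (k : Fin d) (j : ι) => IsLocalRing.residue A (v' k j)) ≤
          LinearMap.ker (LinearMap.proj i :
            (ι → IsLocalRing.ResidueField A) →ₗ[IsLocalRing.ResidueField A] _) := by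
        rw [Submodule.span_le]
        rintro _ ⟨k, rfl⟩
        have h0 : ((v' k i : A) : K) = 0 := ((hmemV' _).1 (hv'V k)).2
        have h0' : v' k i = 0 := Subtype.val_injective h0
        simp [h0']
      have := hspan hmem
      simp [hf'i] at this

/-- **Echelon lemma.**  If every nonzero element of `V` has a coefficient of maximal size, then the
unit ball of `V` contains `dim V` elements with linearly independent reductions.
Proof: induction on `dim V`.  Take `f ≠ 0`, pivot `i`, normalise `f i = 1` (all coefficients in
`A`).  `V' := {g ∈ V | g i = 0}` has dimension one less; the reductions of the vectors found in `V'`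
vanish at `i`, the reduction of `f` is `1` at `i`. -/
theorem exists_independent_residue (V : Submodule K (ι → K)) [FiniteDimensional K V]
    (hatt : ∀ f ∈ V, f ≠ 0 → ∃ i, f i ≠ 0 ∧ ∀ j, f j / f i ∈ A) :
    ∃ v : Fin (finrank K V) → ι → A, (∀ i, (fun j => ((v i j : A) : K)) ∈ V) ∧
      LinearIndependent (IsLocalRing.ResidueField A)
        (fun (i : Fin (finrank K V)) (j : ι) => IsLocalRing.residue A (v i j)) :=
  Echelon.aux A (finrank K V) V rfl hatt

end Fermat.Agent.S34.Nodal
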