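/-
C1 nodal core, Layer II (sub-architect and prover: helper237).

The level of a discrete valuation ring.  Everything happens inside one field `F`.
`A0` is a noetherian ring (think: `A ∩ K0`, `K0` a number field) with a distinguished element `w`
(a uniformiser), `π` its image in `F`.  `O` is a subring of `F` (think: the `K0`-rational functions
whose expansions at all the vertical valuations are integral), `B1`, `B2 ⊆ O` are the two charts
(functions in `O` without poles outside `x = ∞`, resp. `x = 0`).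

`IsLevel2.main`: if `h ≡ 1 mod π` has sections `s₁`, `s₂ ≡ 1 mod π` on the two charts
(`s_i ^ n * h ∈ B_i`), then it has a global section `s ≡ 1`: `s ^ n * h ∈ B1 ∩ B2`.

The proof is Newton iteration on each chart, uniqueness of approximate roots, and the boundedness of
the `π`-power torsion of the Cech `H¹` (all from `S18/Abs`).  No normality or irreducibility of the
special fibre is used.
-/
import Fermat.Agent.S18.Abs.Newton
import Fermat.Agent.S18.Abs.CechBound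

set_option autoImplicit false

namespace Fermat.Agent.S34.Nodal

open Fermat.Agent.S18.Abs

variable {A0 F : Type*} [CommRing A0] [Field F] [Algebra A0 F]

/-- The hypotheses of Layer II. -/
structure IsLevel2 (w : A0) (n : ℕ) (O B1 B2 : Subring F) (x : F) : Prop where
  npos : 0 < n
  n_ne : (n : F) ≠ 0
  pi_ne : algebraMap A0 F w ≠ 0
  pi_inv : (algebraMap A0 F w)⁻¹ ∉ O
  le1 : B1 ≤ O
  le2 : B2 ≤ O
  const1 : ∀ a : A0, algebraMap A0 F a ∈ B1
  const2 : ∀ a : A0, algebraMap A0 F a ∈ B2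
  x_ne : x ≠ 0
  x_mem : x ∈ B1
  xinv_mem : x⁻¹ ∈ B2
  /-- `π` lies in the Jacobson radical of `O` -/
  jac : ∀ y ∈ O, (y - 1) / algebraMap A0 F w ∈ O → y⁻¹ ∈ O
  sat1 : ∀ z ∈ O, algebraMap A0 F w * z ∈ B1 → z ∈ B1
  sat2 : ∀ z ∈ O, algebraMap A0 F w * z ∈ B2 → z ∈ B2
  rootO : ∀ z : F, z ^ n ∈ O → z ∈ O
  root1 : ∀ z : F, z ^ n ∈ B1 → z ∈ B1
  root2 : ∀ z : F, z ^ n ∈ B2 → z ∈ B2
  overlap1 : ∀ b ∈ B1, ∃ e : ℕ, x⁻¹ ^ e * b ∈ B2
  overlap2 : ∀ b ∈ B2, ∃ e : ℕ, x ^ e * b ∈ B1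
  ninv1 : (n : F)⁻¹ ∈ B1
  ninv2 : (n : F)⁻¹ ∈ B2
  /-- `B1` is contained in a finitely generated `A0[x]`-module -/
  fin1 : ∃ S : Finset F, ∀ b ∈ B1, b ∈ Submodule.span (Algebra.adjoin A0 {x}) (S : Set F)

namespace LayerII

/-- `y ^ n * u ∈ B` is an additive condition when `B` is `n`-root closed. -/
theorem add_pow_mul_mem' {n : ℕ} {B : Subring F} (hroot : ∀ z : F, z ^ n ∈ B → z ∈ B) {u y y' : F}
    (hy : y ^ n * u ∈ B) (hy' : y' ^ n * u ∈ B) : (y + y') ^ n * u ∈ B := by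
  rw [add_pow, Finset.sum_mul]
  refine Subring.sum_mem _ fun i hi => ?_
  have hi' : i ≤ n := Nat.lt_succ_iff.mp (Finset.mem_range.mp hi)
  have h1 : y ^ i * y' ^ (n - i) * u ∈ B := by
    apply hroot
    have : (y ^ i * y' ^ (n - i) * u) ^ n = (y ^ n * u) ^ i * (y' ^ n * u) ^ (n - i) := by
      have hu : u ^ n = u ^ i * u ^ (n - i) := by rw [← pow_add, Nat.add_sub_cancel' hi']
      rw [mul_pow, mul_pow, mul_pow, mul_pow, hu, ← pow_mul, ← pow_mul, ← pow_mul, ← pow_mul,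
        mul_comm i n, mul_comm (n - i) n]
      ring
    rw [this]
    exact B.mul_mem (B.pow_mem hy _) (B.pow_mem hy' _)
  have h2 : y ^ i * y' ^ (n - i) * (n.choose i : F) * u
      = (n.choose i : F) * (y ^ i * y' ^ (n - i) * u) := by ring
  rw [h2]
  exact B.mul_mem (natCast_mem B _) h1

/-- The module `{y | y ^ n * h ∈ B}` over a ring `R` mapping to `B`. -/
def rootMod (R : Type*) [CommRing R] [Algebra R F] (B : Subring F) (n : ℕ) (hn : 0 < n)
    (hR : ∀ a : R, algebraMap R F a ∈ B) (hroot : ∀ z : F, z ^ n ∈ B → z ∈ B) (h : F) :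
    Submodule R F where
  carrier := {y | y ^ n * h ∈ B}
  zero_mem' := by
    show (0 : F) ^ n * h ∈ B
    rw [zero_pow hn.ne', zero_mul]
    exact B.zero_mem
  add_mem' hy hy' := add_pow_mul_mem' hroot hy hy'
  smul_mem' := by
    intro a y hy
    show (a • y) ^ n * h ∈ B
    rw [Algebra.smul_def, mul_pow, mul_assoc]
    exact B.mul_mem (B.pow_mem (hR a) _) hy

theorem mem_rootMod {R : Type*} [CommRing R] [Algebra R F] {B : Subring F} {n : ℕ} {hn : 0 < n}
    {hR : ∀ a : R, algebraMap R F a ∈ B} {hroot : ∀ z : F, z ^ n ∈ B → z ∈ B} {h y : F} :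
    y ∈ rootMod R B n hn hR hroot h ↔ y ^ n * h ∈ B := Iff.rfl

theorem dvd_iff_div_mem' (O : Subring F) {π : F} (hπ0 : π ≠ 0) (hπO : π ∈ O) (z : O)
    (k : ℕ) : (⟨π, hπO⟩ : O) ^ k ∣ z ↔ (z : F) / π ^ k ∈ O := by
  have hk : π ^ k ≠ 0 := pow_ne_zero _ hπ0
  constructor
  · rintro ⟨c, rfl⟩
    have : (((⟨π, hπO⟩ : O) ^ k * c : O) : F) / π ^ k = c := by
      simp only [MulMemClass.coe_mul, SubmonoidClass.coe_pow]
      field_simp
    rw [this]
    exact c.2
  · intro h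
    refine ⟨⟨_, h⟩, Subtype.ext ?_⟩
    simp only [MulMemClass.coe_mul, SubmonoidClass.coe_pow]
    field_simp

/-- `B[1/x]`. -/
def locSubring (B : Subring F) (x : F) (hx : x ∈ B) : Subring F where
  carrier := {y | ∃ e : ℕ, x ^ e * y ∈ B}
  mul_mem' := by
    rintro y y' ⟨e, he⟩ ⟨e', he'⟩
    refine ⟨e + e', ?_⟩
    have : x ^ (e + e') * (y * y') = (x ^ e * y) * (x ^ e' * y') := by rw [pow_add]; ring
    rw [this]
    exact B.mul_mem he he'
  one_mem' := ⟨0, by simp⟩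
  add_mem' := by
    rintro y y' ⟨e, he⟩ ⟨e', he'⟩
    refine ⟨e + e', ?_⟩
    have : x ^ (e + e') * (y + y') = x ^ e' * (x ^ e * y) + x ^ e * (x ^ e' * y') := by
      rw [pow_add]; ring
    rw [this]
    exact B.add_mem (B.mul_mem (B.pow_mem hx _) he) (B.mul_mem (B.pow_mem hx _) he')
  zero_mem' := ⟨0, by simp⟩
  neg_mem' := by
    rintro y ⟨e, he⟩
    exact ⟨e, by rw [mul_neg]; exact B.neg_mem he⟩

theorem mem_locSubring {B : Subring F} {x : F} {hx : x ∈ B} {y : F} :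
    y ∈ locSubring B x hx ↔ ∃ e : ℕ, x ^ e * y ∈ B := Iff.rfl

end LayerII

open LayerII

namespace IsLevel2

variable {w : A0} {n : ℕ} {O B1 B2 : Subring F} {x : F} (H : IsLevel2 w n O B1 B2 x)

include H

theorem pi_mem1 : algebraMap A0 F w ∈ B1 := H.const1 w

theorem pi_mem2 : algebraMap A0 F w ∈ B2 := H.const2 w

theorem pi_memO : algebraMap A0 F w ∈ O := H.le1 H.pi_mem1

/-- elements `≡ 1 mod π` are units of `O`. -/
theorem unit_of_sub_one {y : F} (hy : (y - 1) / algebraMap A0 F w ∈ O) :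
    y ∈ O ∧ y⁻¹ ∈ O ∧ y ≠ 0 := by
  have hπ := H.pi_ne
  have h1 : y = 1 + algebraMap A0 F w * ((y - 1) / algebraMap A0 F w) := by field_simp; ring
  have hyO : y ∈ O := by
    rw [h1]
    exact O.add_mem O.one_mem (O.mul_mem H.pi_memO hy)
  refine ⟨hyO, H.jac y hyO hy, ?_⟩
  rintro rfl
  apply H.pi_inv
  have : (algebraMap A0 F w)⁻¹ = -(((0 : F) - 1) / algebraMap A0 F w) := by field_simp; ring
  rw [this]
  exact O.neg_mem hy

/-- The overlap chart. -/
def B12 : Subring F := locSubring B1 x H.x_mem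

theorem le12_1 : B1 ≤ H.B12 := fun b hb => ⟨0, by simpa using hb⟩

theorem le12_2 : B2 ≤ H.B12 := fun b hb => H.overlap2 b hb

theorem le12_O : H.B12 ≤ O := by
  rintro y ⟨e, he⟩
  have : y = x⁻¹ ^ e * (x ^ e * y) := by
    have := H.x_ne
    rw [inv_pow]
    field_simp
  rw [this]
  exact O.mul_mem (O.pow_mem (H.le2 H.xinv_mem) _) (H.le1 he)

theorem sat12 : ∀ z ∈ O, algebraMap A0 F w * z ∈ H.B12 → z ∈ H.B12 := by
  rintro z hz ⟨e, he⟩
  refine ⟨e, H.sat1 _ (O.mul_mem (O.pow_mem (H.le1 H.x_mem) _) hz) ?_⟩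
  have : algebraMap A0 F w * (x ^ e * z) = x ^ e * (algebraMap A0 F w * z) := by ring
  rw [this]
  exact he

theorem pow_mul_pow_mem {B : Subring F} {c y h : F} (hc : c ∈ B) (hy : c * (y ^ n * h) ∈ B) :
    (c * y) ^ n * h ∈ B := by
  obtain ⟨m, hm⟩ : ∃ m, n = m + 1 := ⟨n - 1, by have := H.npos; omega⟩
  have : (c * y) ^ n * h = c ^ m * (c * (y ^ n * h)) := by
    rw [mul_pow]
    conv_lhs => rw [hm, pow_succ c m]
    rw [← hm]
    ring
  rw [this]
  exact B.mul_mem (B.pow_mem hc _) hy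

theorem root12 : ∀ z : F, z ^ n ∈ H.B12 → z ∈ H.B12 := by
  rintro z ⟨e, he⟩
  refine ⟨e, H.root1 _ ?_⟩
  have := H.pow_mul_pow_mem (h := 1) (B1.pow_mem H.x_mem e) (by simpa using he)
  simpa using this

theorem const12 : ∀ a : A0, algebraMap A0 F a ∈ H.B12 := fun a => H.le12_1 (H.const1 a)

theorem exists_xinv_pow_mul_mem : ∀ y ∈ H.B12, ∃ e : ℕ, x⁻¹ ^ e * y ∈ B2 := by
  rintro y ⟨e, he⟩
  obtain ⟨e', he'⟩ := H.overlap1 _ he
  refine ⟨e', ?_⟩
  have : x⁻¹ ^ e' * y = x⁻¹ ^ e * (x⁻¹ ^ e' * (x ^ e * y)) := by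
    have := H.x_ne
    rw [inv_pow, inv_pow]
    field_simp
  rw [this]
  exact B2.mul_mem (B2.pow_mem H.xinv_mem _) he'

/-- saturation of a chart, iterated. -/
theorem sat_pow' {B : Subring F} (hsat : ∀ z ∈ O, algebraMap A0 F w * z ∈ B → z ∈ B) :
    ∀ (k : ℕ) (z : F), z ∈ O → algebraMap A0 F w ^ k * z ∈ B → z ∈ B
  | 0, z, _, h => by simpa using h
  | k + 1, z, hz, h => by
      apply sat_pow' hsat k z hz
      apply hsat _ (O.mul_mem (O.pow_mem H.pi_memO k) hz)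
      have : algebraMap A0 F w * (algebraMap A0 F w ^ k * z) = algebraMap A0 F w ^ (k + 1) * z := by
        ring
      rw [this]
      exact h

/-- Newton iteration on a chart having a section `≡ 1`. -/
theorem newton_chart {B : Subring F} (hle : B ≤ O) (hπB : algebraMap A0 F w ∈ B)
    (hsat : ∀ z ∈ O, algebraMap A0 F w * z ∈ B → z ∈ B)
    (hroot : ∀ z : F, z ^ n ∈ B → z ∈ B) (hninv : (n : F)⁻¹ ∈ B) {h s : F}
    (hh : (h - 1) / algebraMap A0 F w ∈ O) (hs : (s - 1) / algebraMap A0 F w ∈ O)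
    (hsB : s ^ n * h ∈ B) (k : ℕ) :
    ∃ a : F, a ^ n * h ∈ B ∧ a ∈ O ∧ (a - 1) / algebraMap A0 F w ∈ O ∧
      (a ^ n * h - 1) / algebraMap A0 F w ^ (k + 1) ∈ O := by
  set π : F := algebraMap A0 F w with hπdef
  have hπ : π ≠ 0 := H.pi_ne
  have hπO : π ∈ O := H.pi_memO
  obtain ⟨hhO, -, -⟩ := H.unit_of_sub_one hh
  obtain ⟨hsO, -, -⟩ := H.unit_of_sub_one hs
  have hn0 : (n : F) ≠ 0 := H.n_ne
  let I : AddSubgroup O :=
    { carrier := {y | (y : F) ^ n * h ∈ B}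
      zero_mem' := by
        show ((0 : O) : F) ^ n * h ∈ B
        rw [Subring.coe_zero, zero_pow H.npos.ne', zero_mul]
        exact B.zero_mem
      add_mem' := by
        intro y y' hy hy'
        exact add_pow_mul_mem' hroot hy hy'
      neg_mem' := by
        intro y hy
        show ((-y : O) : F) ^ n * h ∈ B
        have : ((-y : O) : F) ^ n * h = (-1 : F) ^ n * ((y : F) ^ n * h) := by
          rw [Subring.coe_neg, neg_pow]; ring
        rw [this]
        exact B.mul_mem (B.pow_mem (B.neg_mem B.one_mem) _) hy }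
  obtain ⟨a, haI, ha1, hak⟩ := Fermat.Agent.S18.Abs.newton (O := O) (⟨π, hπO⟩ : O) ⟨h, hhO⟩ n
    (B.comap O.subtype) I
    (by
      intro z hz
      exact hsat _ z.2 hz)
    (by
      intro c hc
      show (π * (c : F)) ^ n * h ∈ B
      rw [mul_pow, mul_assoc]
      exact B.mul_mem (B.pow_mem hπB _) hc)
    (by
      intro a ha
      exact ha)
    (by
      intro b hb
      refine ⟨b * ⟨s, hsO⟩, ?_, ?_⟩
      · show ((b : F) * s) ^ n * h ∈ B
        rw [mul_pow, mul_assoc]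
        exact B.mul_mem (B.pow_mem hb _) hsB
      · have := (dvd_iff_div_mem' O hπ hπO (b * ⟨s, hsO⟩ - b) 1).2 (by
          have : ((b * ⟨s, hsO⟩ - b : O) : F) / π ^ 1 = (b : F) * ((s - 1) / π) := by
            show ((b : F) * s - (b : F)) / π ^ 1 = (b : F) * ((s - 1) / π)
            field_simp
          rw [this]
          exact O.mul_mem b.2 hs)
        simpa using this)
    ⟨(n : F)⁻¹, hle hninv⟩ hninv
    (by
      apply Subtype.ext
      simp only [Subring.coe_mul, Subring.coe_one]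
      have : (((n : ℕ) : O) : F) = (n : F) := by simp
      rw [this]
      exact mul_inv_cancel₀ hn0)
    (by
      have := (dvd_iff_div_mem' O hπ hπO ((⟨h, hhO⟩ : O) - 1) 1).2 (by simpa using hh)
      simpa using this) k
  refine ⟨a, haI, a.2, ?_, ?_⟩
  · have := (dvd_iff_div_mem' O hπ hπO (a - 1) 1).1 (by simpa using ha1)
    simpa using this
  · have := (dvd_iff_div_mem' O hπ hπO _ (k + 1)).1 hak
    simpa using this

/-- uniqueness of approximate roots. -/
theorem approx_unique {h a b : F} (hh : (h - 1) / algebraMap A0 F w ∈ O)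
    (ha : (a - 1) / algebraMap A0 F w ∈ O) (hb : (b - 1) / algebraMap A0 F w ∈ O) {k : ℕ}
    (hak : (a ^ n * h - 1) / algebraMap A0 F w ^ k ∈ O)
    (hbk : (b ^ n * h - 1) / algebraMap A0 F w ^ k ∈ O) :
    (a - b) / algebraMap A0 F w ^ k ∈ O := by
  set π : F := algebraMap A0 F w with hπdef
  have hπ : π ≠ 0 := H.pi_ne
  have hπO : π ∈ O := H.pi_memO
  obtain ⟨hhO, -, -⟩ := H.unit_of_sub_one hh
  obtain ⟨haO, -, -⟩ := H.unit_of_sub_one ha
  obtain ⟨hbO, -, -⟩ := H.unit_of_sub_one hb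
  have := approx_root_unique (O := O) (⟨π, hπO⟩ : O) ⟨h, hhO⟩ n
    (by
      intro y hy
      have hy' := (dvd_iff_div_mem' O hπ hπO (y - 1) 1).1 (by simpa using hy)
      obtain ⟨-, hyinv, hy0⟩ := H.unit_of_sub_one (y := (y : F)) (by simpa using hy')
      exact ⟨⟨y, ⟨_, hyinv⟩, Subtype.ext (mul_inv_cancel₀ hy0),
        Subtype.ext (inv_mul_cancel₀ hy0)⟩, rfl⟩)
    ⟨(n : F)⁻¹, H.le1 H.ninv1⟩
    (by
      apply Subtype.ext
      simp only [Subring.coe_mul, Subring.coe_one]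
      have : (((n : ℕ) : O) : F) = (n : F) := by simp
      rw [this]
      exact mul_inv_cancel₀ H.n_ne)
    (by
      have := (dvd_iff_div_mem' O hπ hπO ((⟨h, hhO⟩ : O) - 1) 1).2 (by simpa using hh)
      simpa using this)
    (a := ⟨a, haO⟩) (b := ⟨b, hbO⟩)
    (by
      have := (dvd_iff_div_mem' O hπ hπO ((⟨a, haO⟩ : O) - 1) 1).2 (by simpa using ha)
      simpa using this)
    (by
      have := (dvd_iff_div_mem' O hπ hπO ((⟨b, hbO⟩ : O) - 1) 1).2 (by simpa using hb)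
      simpa using this)
    (k := k)
    ((dvd_iff_div_mem' O hπ hπO _ k).2 (by simpa using hak))
    ((dvd_iff_div_mem' O hπ hπO _ k).2 (by simpa using hbk))
  have := (dvd_iff_div_mem' O hπ hπO _ k).1 this
  simpa using this

/-- the root modules over `A0`. -/
def I1 (h : F) : Submodule A0 F := rootMod A0 B1 n H.npos H.const1 H.root1 h

/-- the root modules over `A0`. -/
def I2 (h : F) : Submodule A0 F := rootMod A0 B2 n H.npos H.const2 H.root2 h

/-- the root modules over `A0`. -/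
def I12 (h : F) : Submodule A0 F := rootMod A0 H.B12 n H.npos H.const12 H.root12 h

theorem adjoin_le : ∀ r : Algebra.adjoin A0 {x}, algebraMap (Algebra.adjoin A0 {x}) F r ∈ B1 := by
  intro r
  have hle : Algebra.adjoin A0 {x} ≤
      ({ B1 with algebraMap_mem' := H.const1 } : Subalgebra A0 F) := by
    rw [Algebra.adjoin_le_iff]
    rintro _ rfl
    exact H.x_mem
  exact hle r.2

/-- `I1` is finitely generated over `A0[x]`. -/
theorem exists_generators [IsNoetherianRing A0] {h d : F} (hh0 : h ≠ 0) (hd : d ≠ 0)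
    (hdh : d ^ n * h⁻¹ ∈ B1) :
    ∃ s : Finset F, (∀ y ∈ H.I1 h, y ∈ Submodule.span (Algebra.adjoin A0 {x}) (s : Set F)) ∧
      ∀ e ∈ s, e ∈ H.I1 h := by
  classical
  obtain ⟨S, hS⟩ := H.fin1
  set R := Algebra.adjoin A0 {x} with hR
  have hnoeth : IsNoetherianRing R := by
    have : (Algebra.adjoin A0 ((({x} : Finset F) : Set F))).FG := Subalgebra.fg_adjoin_finset _
    rw [Finset.coe_singleton] at this
    exact isNoetherianRing_of_fg this
  let J : Submodule R F := rootMod R B1 n H.npos H.adjoin_le H.root1 h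
  have hJle : J ≤ (Submodule.span R (S : Set F)).map (LinearMap.mulLeft R d⁻¹) := by
    intro y hy
    have hy' : y ^ n * h ∈ B1 := hy
    have h1 : d * y ∈ B1 := by
      apply H.root1
      have : (d * y) ^ n = (d ^ n * h⁻¹) * (y ^ n * h) := by
        rw [mul_pow]
        field_simp
      rw [this]
      exact B1.mul_mem hdh hy'
    refine ⟨d * y, hS _ h1, ?_⟩
    show d⁻¹ * (d * y) = y
    field_simp
  have hfg : J.FG := Submodule.FG.of_le ((Submodule.fg_span S.finite_toSet).map _) hJle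
  obtain ⟨s, hs⟩ := hfg
  refine ⟨s, fun y hy => ?_, fun e he => ?_⟩
  · rw [hs]
    exact hy
  · have : e ∈ J := hs ▸ Submodule.subset_span he
    exact this

/-- the `π`-power torsion of the Cech `H¹` is bounded. -/
theorem exists_bound [IsNoetherianRing A0] {h d : F} (hh0 : h ≠ 0) (hd : d ≠ 0)
    (hdh : d ^ n * h⁻¹ ∈ B1) :
    ∃ k0 : ℕ, ∀ y ∈ H.I12 h, ∀ k : ℕ, w ^ k • y ∈ H.I1 h ⊔ H.I2 h →
      w ^ k0 • y ∈ H.I1 h ⊔ H.I2 h := by
  obtain ⟨s, hs, hsI⟩ := H.exists_generators hh0 hd hdh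
  refine exists_torsion_bound' x H.x_ne w (H.I1 h) (H.I2 h) (H.I12 h) ?_ ?_ ?_ s hs hsI ?_ ?_
  · intro y hy
    exact H.le12_1 hy
  · intro y hy
    show (x * y) ^ n * h ∈ B1
    rw [mul_pow, mul_assoc]
    exact B1.mul_mem (B1.pow_mem H.x_mem _) hy
  · intro y hy
    show (x⁻¹ * y) ^ n * h ∈ B2
    rw [mul_pow, mul_assoc]
    exact B2.mul_mem (B2.pow_mem H.xinv_mem _) hy
  · intro y hy
    obtain ⟨e, he⟩ : ∃ e : ℕ, x ^ e * (y ^ n * h) ∈ B1 := hy
    exact ⟨e, H.pow_mul_pow_mem (B1.pow_mem H.x_mem e) he⟩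
  · intro y hy
    obtain ⟨e, he⟩ := H.exists_xinv_pow_mul_mem _ hy
    exact ⟨e, H.pow_mul_pow_mem (B2.pow_mem H.xinv_mem e) he⟩

/-- elements of the root modules lie in `O`. -/
theorem mem_O_of_pow_mul_mem {h y : F} (hhinv : h⁻¹ ∈ O) (hh0 : h ≠ 0) (hy : y ^ n * h ∈ O) :
    y ∈ O := by
  apply H.rootO
  have : y ^ n = (y ^ n * h) * h⁻¹ := by field_simp
  rw [this]
  exact O.mul_mem hy hhinv

/-- **Layer II.**  Sections `≡ 1` on both charts glue to a global section `≡ 1`. -/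
theorem main [IsNoetherianRing A0] {h d s1 s2 : F} (hh : (h - 1) / algebraMap A0 F w ∈ O)
    (hd : d ≠ 0) (hdh : d ^ n * h⁻¹ ∈ B1)
    (hs1 : (s1 - 1) / algebraMap A0 F w ∈ O) (hs1B : s1 ^ n * h ∈ B1)
    (hs2 : (s2 - 1) / algebraMap A0 F w ∈ O) (hs2B : s2 ^ n * h ∈ B2) :
    ∃ s : F, s ≠ 0 ∧ (s - 1) / algebraMap A0 F w ∈ O ∧ s ^ n * h ∈ B1 ∧ s ^ n * h ∈ B2 := by
  obtain ⟨hhO, hhinv, hh0⟩ := H.unit_of_sub_one hh
  obtain ⟨k0, htors⟩ := H.exists_bound hh0 hd hdh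
  set π : F := algebraMap A0 F w with hπdef
  have hπ : π ≠ 0 := H.pi_ne
  have hπO : π ∈ O := H.pi_memO
  obtain ⟨a, haI, haO, ha1, hak⟩ :=
    H.newton_chart H.le1 H.pi_mem1 H.sat1 H.root1 H.ninv1 hh hs1 hs1B k0
  obtain ⟨b, hbI, hbO, hb1, hbk⟩ :=
    H.newton_chart H.le2 H.pi_mem2 H.sat2 H.root2 H.ninv2 hh hs2 hs2B k0
  have hab : (a - b) / π ^ (k0 + 1) ∈ O := H.approx_unique hh ha1 hb1 hak hbk
  set y := (a - b) / π ^ (k0 + 1) with hy
  have hπk : π ^ (k0 + 1) ≠ 0 := pow_ne_zero _ hπ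
  have hyeq : π ^ (k0 + 1) * y = a - b := by rw [hy]; field_simp
  have haI1 : a ∈ H.I1 h := haI
  have hbI2 : b ∈ H.I2 h := hbI
  have hy12 : y ∈ H.I12 h := by
    show y ^ n * h ∈ H.B12
    apply H.sat_pow' H.sat12 ((k0 + 1) * n) _ (O.mul_mem (O.pow_mem hab _) hhO)
    have e : π ^ ((k0 + 1) * n) * (y ^ n * h) = (π ^ (k0 + 1) * y) ^ n * h := by
      rw [mul_pow, ← pow_mul]; ring
    rw [← hπdef, e, hyeq]
    have : a - b ∈ H.I12 h :=
      (H.I12 h).sub_mem (H.le12_1 haI : a ∈ H.I12 h) (H.le12_2 hbI : b ∈ H.I12 h)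
    exact this
  have hmem : w ^ (k0 + 1) • y ∈ H.I1 h ⊔ H.I2 h := by
    rw [Algebra.smul_def, map_pow, ← hπdef, hyeq, sub_eq_add_neg]
    exact Submodule.add_mem_sup haI1 ((H.I2 h).neg_mem hbI2)
  obtain ⟨y1, hy1, y2, hy2, hsum⟩ := Submodule.mem_sup.1 (htors y hy12 (k0 + 1) hmem)
  rw [Algebra.smul_def, map_pow, ← hπdef] at hsum
  have hy1O : y1 ∈ O := H.mem_O_of_pow_mul_mem hhinv hh0 (H.le1 hy1)
  have hπy1 : π * y1 ∈ H.I1 h := by
    have := (H.I1 h).smul_mem w hy1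
    rwa [Algebra.smul_def] at this
  have hπy2 : π * y2 ∈ H.I2 h := by
    have := (H.I2 h).smul_mem w hy2
    rwa [Algebra.smul_def] at this
  have hs1' : a - π * y1 ∈ H.I1 h := (H.I1 h).sub_mem haI1 hπy1
  have hs2' : a - π * y1 ∈ H.I2 h := by
    have : a - π * y1 = b + π * y2 := by
      have e : π ^ (k0 + 1) * y = π * (π ^ k0 * y) := by ring
      rw [e, ← hsum] at hyeq
      linear_combination -hyeq
    rw [this]
    exact (H.I2 h).add_mem hbI2 hπy2
  have hs : (a - π * y1 - 1) / π ∈ O := by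
    have : (a - π * y1 - 1) / π = (a - 1) / π - y1 := by field_simp; ring
    rw [this]
    exact O.sub_mem ha1 hy1O
  exact ⟨a - π * y1, (H.unit_of_sub_one hs).2.2, hs, hs1', hs2'⟩

end IsLevel2

end Fermat.Agent.S34.Nodal
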