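/-
C1 nodal core, Layer II (architect helper201): finite generation and bounded torsion of the Cech
`H¹` of a pair of lattices.  Mathlib only.
-/
import Mathlib

set_option autoImplicit false

namespace Fermat.Agent.S34.Nodal

open Polynomial

/-- `I` is generated over `A[x]` by the finite set `S`. -/
def SpanPow {A F : Type*} [CommRing A] [Field F] [Algebra A F] (x : F) (S : Finset F)
    (I : Submodule A F) : Prop :=
  (∀ g ∈ S, g ∈ I) ∧ ∀ y ∈ I, y ∈ Submodule.span A {z : F | ∃ g ∈ S, ∃ a : ℕ, z = x ^ a * g}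

/-- Stability of `I1` under powers of `x`. -/
theorem torsion_pow_mul_mem {A F : Type*} [CommRing A] [Field F] [Algebra A F] (x : F)
    (I : Submodule A F) (hxI : ∀ y ∈ I, x * y ∈ I) (n : ℕ) : ∀ y ∈ I, x ^ n * y ∈ I := by
  induction n with
  | zero => intro y hy; simpa using hy
  | succ n ih =>
    intro y hy
    have := hxI _ (ih y hy)
    rwa [← mul_assoc, ← pow_succ'] at this

/-- The common core of the Cech computations: a submodule containing `I1` and all the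
`x⁻¹ ^ j * g` contains `I12`. -/
theorem torsion_le_of_forall {A F : Type*} [CommRing A] [Field F] [Algebra A F] (x : F)
    (hx : x ≠ 0) (I1 I12 T : Submodule A F)
    (hx1 : ∀ y ∈ I1, x * y ∈ I1)
    (hloc : ∀ y ∈ I12, ∃ m : ℕ, x ^ m * y ∈ I1)
    (S : Finset F) (hS : SpanPow x S I1) (h1 : I1 ≤ T)
    (hT : ∀ g ∈ S, ∀ j : ℕ, x⁻¹ ^ j * g ∈ T) : I12 ≤ T := by
  have key : ∀ m : ℕ, ∀ z ∈ Submodule.span A {z : F | ∃ g ∈ S, ∃ a : ℕ, z = x ^ a * g},
      x⁻¹ ^ m * z ∈ T := by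
    intro m z hz
    induction hz using Submodule.span_induction with
    | mem z hz =>
      obtain ⟨g, hg, a, rfl⟩ := hz
      rcases le_total m a with h | h
      · have e : x⁻¹ ^ m * (x ^ a * g) = x ^ (a - m) * g := by
          obtain ⟨d, rfl⟩ := Nat.exists_eq_add_of_le h
          rw [Nat.add_sub_cancel_left, pow_add, inv_pow]
          field_simp
        rw [e]
        exact h1 (torsion_pow_mul_mem x I1 hx1 _ g (hS.1 g hg))
      · have e : x⁻¹ ^ m * (x ^ a * g) = x⁻¹ ^ (m - a) * g := by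
          obtain ⟨d, rfl⟩ := Nat.exists_eq_add_of_le h
          rw [Nat.add_sub_cancel_left, pow_add, inv_pow, inv_pow]
          field_simp
        rw [e]
        exact hT g hg _
    | zero => simp
    | add u v _ _ hu hv => rw [mul_add]; exact T.add_mem hu hv
    | smul r u _ hu => rw [mul_smul_comm]; exact T.smul_mem r hu
  intro y hy
  obtain ⟨m, hm⟩ := hloc y hy
  have := key m _ (hS.2 _ hm)
  rwa [← mul_assoc, ← mul_pow, inv_mul_cancel₀ hx, one_pow, one_mul] at this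

/-- A uniform exponent `c` with `x⁻¹ ^ j * g ∈ I2` for all `j ≥ c`, `g ∈ S`. -/
theorem torsion_exists_uniform {A F : Type*} [CommRing A] [Field F] [Algebra A F] (x : F)
    (I2 : Submodule A F) (hx2 : ∀ y ∈ I2, x⁻¹ * y ∈ I2)
    (S : Finset F) (hS2 : ∀ g ∈ S, ∃ c : ℕ, x⁻¹ ^ c * g ∈ I2) :
    ∃ c : ℕ, ∀ g ∈ S, ∀ j : ℕ, c ≤ j → x⁻¹ ^ j * g ∈ I2 := by
  classical
  choose! cg hcg using hS2
  refine ⟨S.sup cg, fun g hg j hj => ?_⟩
  have hle : cg g ≤ j := le_trans (Finset.le_sup hg) hj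
  obtain ⟨d, rfl⟩ := Nat.exists_eq_add_of_le hle
  have := torsion_pow_mul_mem x⁻¹ I2 hx2 d _ (hcg g hg)
  rwa [← mul_assoc, ← pow_add, add_comm] at this

/-- `I12 = I1 + I2 + (a finitely generated `A`-module)`.
Proof: `y ∈ I12`, `x ^ m * y = ∑ c * x ^ a * g`, so `y = ∑ c * x ^ (a - m) * g`; the terms with
`a ≥ m` are in `I1`, those with `a - m ≤ - c_g` in `I2`; the others lie in the span of the finite
set `{x⁻¹ ^ j * g | g ∈ S, j < c}`. -/
theorem exists_fg_complement {A F : Type*} [CommRing A] [Field F] [Algebra A F] (x : F) (hx : x ≠ 0)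
    (I1 I2 I12 : Submodule A F)
    (hx1 : ∀ y ∈ I1, x * y ∈ I1) (hx2 : ∀ y ∈ I2, x⁻¹ * y ∈ I2)
    (hloc : ∀ y ∈ I12, ∃ m : ℕ, x ^ m * y ∈ I1)
    (S : Finset F) (hS : SpanPow x S I1) (hS2 : ∀ g ∈ S, ∃ c : ℕ, x⁻¹ ^ c * g ∈ I2) :
    ∃ E : Finset F, I12 ≤ I1 ⊔ I2 ⊔ Submodule.span A (E : Set F) := by
  classical
  obtain ⟨c, hc⟩ := torsion_exists_uniform x I2 hx2 S hS2
  refine ⟨(S ×ˢ Finset.range c).image (fun gj => x⁻¹ ^ gj.2 * gj.1), ?_⟩
  refine torsion_le_of_forall x hx I1 I12 _ hx1 hloc S hS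
    (le_trans le_sup_left le_sup_left) (fun g hg j => ?_)
  rcases lt_or_ge j c with h | h
  · refine Submodule.mem_sup_right (Submodule.subset_span ?_)
    rw [Finset.mem_coe, Finset.mem_image]
    exact ⟨(g, j), Finset.mem_product.2 ⟨hg, Finset.mem_range.2 h⟩, rfl⟩
  · exact Submodule.mem_sup_left (Submodule.mem_sup_right (hc g hg j h))

/-- Vanishing of `H¹` after a twist: `I12 = I1 + x ^ c * I2`. -/
theorem exists_twist_vanishing {A F : Type*} [CommRing A] [Field F] [Algebra A F] (x : F)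
    (hx : x ≠ 0) (I1 I2 I12 : Submodule A F)
    (hx1 : ∀ y ∈ I1, x * y ∈ I1) (hx2 : ∀ y ∈ I2, x⁻¹ * y ∈ I2)
    (hloc : ∀ y ∈ I12, ∃ m : ℕ, x ^ m * y ∈ I1)
    (S : Finset F) (hS : SpanPow x S I1) (hS2 : ∀ g ∈ S, ∃ c : ℕ, x⁻¹ ^ c * g ∈ I2) :
    ∃ c : ℕ, ∀ z ∈ I12, ∃ z1 ∈ I1, ∃ z2 ∈ I2, z = z1 + x ^ c * z2 := by
  obtain ⟨c, hc⟩ := torsion_exists_uniform x I2 hx2 S hS2
  refine ⟨c, fun z hz => ?_⟩
  have hle : I12 ≤ I1 ⊔ Submodule.map (LinearMap.mulLeft A (x ^ c)) I2 := by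
    refine torsion_le_of_forall x hx I1 I12 _ hx1 hloc S hS le_sup_left (fun g hg j => ?_)
    refine Submodule.mem_sup_right (Submodule.mem_map.2
      ⟨x⁻¹ ^ (c + j) * g, hc g hg _ (Nat.le_add_right c j), ?_⟩)
    rw [LinearMap.mulLeft_apply, pow_add, inv_pow, inv_pow]
    field_simp
  obtain ⟨z1, h1, w, hw, rfl⟩ := Submodule.mem_sup.1 (hle hz)
  obtain ⟨z2, h2, rfl⟩ := Submodule.mem_map.1 hw
  exact ⟨z1, h1, z2, h2, by rw [LinearMap.mulLeft_apply]⟩

/-- Bounded torsion of `I12 / (I1 + I2)` over a noetherian ring.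
Proof: `exists_fg_complement`; `N := span E` is a noetherian module, the chain
`N_k = {ε ∈ N | π ^ k • ε ∈ I1 ⊔ I2}` stabilises. -/
theorem exists_bounded_torsion {A F : Type*} [CommRing A] [IsNoetherianRing A] [Field F]
    [Algebra A F] (π : A) (x : F) (hx : x ≠ 0) (I1 I2 I12 : Submodule A F)
    (hx1 : ∀ y ∈ I1, x * y ∈ I1) (hx2 : ∀ y ∈ I2, x⁻¹ * y ∈ I2)
    (hloc : ∀ y ∈ I12, ∃ m : ℕ, x ^ m * y ∈ I1)
    (S : Finset F) (hS : SpanPow x S I1) (hS2 : ∀ g ∈ S, ∃ c : ℕ, x⁻¹ ^ c * g ∈ I2) :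
    ∃ k0 : ℕ, ∀ y ∈ I12, ∀ k : ℕ, π ^ k • y ∈ I1 ⊔ I2 → π ^ k0 • y ∈ I1 ⊔ I2 := by
  obtain ⟨E, hE⟩ := exists_fg_complement x hx I1 I2 I12 hx1 hx2 hloc S hS hS2
  set N : Submodule A F := Submodule.span A (E : Set F) with hN
  set J : Submodule A F := I1 ⊔ I2 with hJ
  have : IsNoetherian A N := isNoetherian_span_of_finite A E.finite_toSet
  let f : ℕ →o Submodule A N :=
    { toFun := fun k => Submodule.comap (LinearMap.lsmul A F (π ^ k) ∘ₗ N.subtype) J
      monotone' := by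
        refine monotone_nat_of_le_succ (fun k ε hε => ?_)
        simp only [Submodule.mem_comap, LinearMap.comp_apply, Submodule.subtype_apply,
          LinearMap.lsmul_apply] at hε ⊢
        rw [pow_succ', mul_smul]
        exact J.smul_mem π hε }
  obtain ⟨k0, hk0⟩ := monotone_stabilizes_iff_noetherian.2 ‹IsNoetherian A N› f
  refine ⟨k0, fun y hy k hk => ?_⟩
  obtain ⟨w, hw, ε, hε, rfl⟩ := Submodule.mem_sup.1 (hE hy)
  have h1 : π ^ k • ε ∈ J := by
    have : π ^ k • ε = π ^ k • (w + ε) - π ^ k • w := by rw [smul_add]; abel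
    rw [this]
    exact J.sub_mem hk (J.smul_mem _ hw)
  have h2 : (⟨ε, hε⟩ : N) ∈ f k := by
    simpa [f] using h1
  have h3 : (⟨ε, hε⟩ : N) ∈ f k0 := by
    rcases le_total k k0 with h | h
    · exact f.monotone h h2
    · rw [hk0 k h]; exact h2
  have h4 : π ^ k0 • ε ∈ J := by
    simpa [f] using h3
  rw [smul_add]
  exact J.add_mem (J.smul_mem _ hw) h4

/-- A module over a ring `B` which is finite over `A[x]` (`A` noetherian), and which is contained in
`d⁻¹ B`, is finitely generated over `A[x]`.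
Proof: `B` is a noetherian `A[X]`-module (via `X ↦ x`), `d * I` is an `A[X]`-submodule. -/
theorem exists_spanPow {A F : Type*} [CommRing A] [IsNoetherianRing A] [Field F] [Algebra A F]
    (x : F) (B : Subalgebra A F) (hxB : x ∈ B) (S0 : Finset F)
    (hS0 : SpanPow x S0 (Subalgebra.toSubmodule B)) (I : Submodule A F)
    (hI : ∀ b ∈ B, ∀ y ∈ I, b * y ∈ I) (d : F) (hd : d ≠ 0) (hdI : ∀ y ∈ I, d * y ∈ B) :
    ∃ S : Finset F, SpanPow x S I := by
  sorry

/-- The integral closure of `A[x]` in a finite separable extension of `Frac A[x]` is finite over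
`A[x]` (`A` noetherian and integrally closed domain, `x` transcendental). -/
theorem exists_spanPow_integralClosure {A K F : Type*} [CommRing A] [IsDomain A]
    [IsNoetherianRing A] [IsIntegrallyClosed A] [Field K] [Algebra A K] [IsFractionRing A K]
    [CharZero K] [Field F] [Algebra K F] [Algebra A F] [IsScalarTower A K F] (x : F)
    (hx : Transcendental K x) (hfin : FiniteDimensional (IntermediateField.adjoin K {x}) F)
    (B : Subalgebra A F) (hB : ∀ y : F, y ∈ B ↔ IsIntegral (Algebra.adjoin A {x}) y) :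
    ∃ S0 : Finset F, SpanPow x S0 (Subalgebra.toSubmodule B) := by
  sorry

end Fermat.Agent.S34.Nodal
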