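/-
C1 nodal core, Layer II (architect helper201): Newton iteration on both charts + Cech gluing,
for a special fibre which need not be normal or irreducible.  Everything happens in one commutative
ring `O` (the intersection of the vertical valuation rings, at the level of a DVR with uniformiser
`π`).  Uses the landed `Fermat/Agent/S18/Abs/Newton.lean`.
-/
import Fermat.Agent.S18.Abs.Newton

set_option autoImplicit false

namespace Fermat.Agent.S34.Nodal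

open Fermat.Agent.S18.Abs

namespace NewtonCech

variable {O : Type*} [CommRing O]

/-- `y ^ n * u ∈ B` is an additive condition when `B` is `n`-root closed. -/
theorem add_pow_mul_mem {n : ℕ} {B : Subring O} (hroot : ∀ z : O, z ^ n ∈ B → z ∈ B) {u y y' : O}
    (hy : y ^ n * u ∈ B) (hy' : y' ^ n * u ∈ B) : (y + y') ^ n * u ∈ B := by
  rw [add_pow, Finset.sum_mul]
  refine Subring.sum_mem _ fun i hi => ?_
  have hi' : i ≤ n := Nat.lt_succ_iff.mp (Finset.mem_range.mp hi)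
  have h1 : y ^ i * y' ^ (n - i) * u ∈ B := by
    apply hroot
    have : (y ^ i * y' ^ (n - i) * u) ^ n = (y ^ n * u) ^ i * (y' ^ n * u) ^ (n - i) := by
      have hu : u ^ n = u ^ i * u ^ (n - i) := by rw [← pow_add, Nat.add_sub_cancel' hi']
      rw [mul_pow, mul_pow, mul_pow, mul_pow, hu, ← pow_mul, ← pow_mul, ← pow_mul, ← pow_mul,
        mul_comm i n, mul_comm (n - i) n]
      ring
    rw [this]
    exact B.mul_mem (B.pow_mem hy _) (B.pow_mem hy' _)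
  have h2 : y ^ i * y' ^ (n - i) * (n.choose i : O) * u
      = (n.choose i : O) * (y ^ i * y' ^ (n - i) * u) := by ring
  rw [h2]
  exact B.mul_mem (natCast_mem B _) h1

/-- the additive group of the `y` with `y ^ n * h ∈ B` -/
def sec (n : ℕ) (hn0 : n ≠ 0) (h : O) (B : Subring O) (hroot : ∀ z : O, z ^ n ∈ B → z ∈ B) :
    AddSubgroup O where
  carrier := {y | y ^ n * h ∈ B}
  add_mem' := fun hy hy' => add_pow_mul_mem hroot hy hy'
  zero_mem' := by
    show (0 : O) ^ n * h ∈ B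
    rw [zero_pow hn0, zero_mul]
    exact B.zero_mem
  neg_mem' := by
    intro y hy
    show (-y) ^ n * h ∈ B
    rw [neg_pow, mul_assoc]
    exact B.mul_mem (B.pow_mem (B.neg_mem B.one_mem) n) hy

end NewtonCech

/-- **Layer II.**  If `h ≡ 1` has sections `s₁`, `s₂ ≡ 1` on both charts (`s_i ^ n * h ∈ B_i`) then
it has a global one.  `newton` (with `I = {y | y ^ n * h ∈ B_i}`, `hsurj` by `c = s_i * b`),
`approx_root_unique`, `cech_glue`. -/
theorem exists_global_root {O : Type*} [CommRing O] (π h : O) (n : ℕ) (B1 B2 B12 : Subring O)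
    (h1 : B1 ≤ B12) (h2 : B2 ≤ B12) (hπ1 : π ∈ B1) (hπ2 : π ∈ B2)
    (hsat1 : ∀ z, π * z ∈ B1 → z ∈ B1) (hsat2 : ∀ z, π * z ∈ B2 → z ∈ B2)
    (hsat12 : ∀ z, π * z ∈ B12 → z ∈ B12)
    (hroot1 : ∀ z, z ^ n ∈ B1 → z ∈ B1) (hroot2 : ∀ z, z ^ n ∈ B2 → z ∈ B2)
    (hroot12 : ∀ z, z ^ n ∈ B12 → z ∈ B12)
    (hjac : ∀ x : O, π ∣ x - 1 → IsUnit x)
    (ninv : O) (hninv1 : ninv ∈ B1) (hninv2 : ninv ∈ B2) (hn : (n : O) * ninv = 1)
    (hh : π ∣ h - 1) (k0 : ℕ)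
    (htors : ∀ y, y ^ n * h ∈ B12 → ∀ k : ℕ,
      (∃ a b, a ^ n * h ∈ B1 ∧ b ^ n * h ∈ B2 ∧ π ^ k * y = a + b) →
        ∃ a b, a ^ n * h ∈ B1 ∧ b ^ n * h ∈ B2 ∧ π ^ k0 * y = a + b)
    (s1 s2 : O) (hs1 : s1 ^ n * h ∈ B1) (hs1' : π ∣ s1 - 1) (hs2 : s2 ^ n * h ∈ B2)
    (hs2' : π ∣ s2 - 1) :
    ∃ s, s ^ n * h ∈ B1 ∧ s ^ n * h ∈ B2 ∧ π ∣ s - 1 := by
  rcases Nat.eq_zero_or_pos n with rfl | hnpos
  · have h01 : (0 : O) = 1 := by simpa using hn
    have : Subsingleton O := subsingleton_of_zero_eq_one h01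
    refine ⟨0, ?_, ?_, ⟨0, Subsingleton.elim _ _⟩⟩
    · rw [Subsingleton.elim ((0 : O) ^ 0 * h) 0]
      exact B1.zero_mem
    · rw [Subsingleton.elim ((0 : O) ^ 0 * h) 0]
      exact B2.zero_mem
  have hn0 : n ≠ 0 := hnpos.ne'
  let I1 : AddSubgroup O := NewtonCech.sec n hn0 h B1 hroot1
  let I2 : AddSubgroup O := NewtonCech.sec n hn0 h B2 hroot2
  let I12 : AddSubgroup O := NewtonCech.sec n hn0 h B12 hroot12
  have hπI : ∀ B : Subring O, π ∈ B → ∀ c, c ^ n * h ∈ B → (π * c) ^ n * h ∈ B := by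
    intro B hπ c hc
    rw [mul_pow, mul_assoc]
    exact B.mul_mem (B.pow_mem hπ n) hc
  have hsurj : ∀ (B : Subring O) (s : O), s ^ n * h ∈ B → π ∣ s - 1 →
      ∀ b ∈ B, ∃ c, c ^ n * h ∈ B ∧ π ∣ c - b := by
    intro B s hs hs' b hb
    refine ⟨s * b, ?_, ?_⟩
    · have : (s * b) ^ n * h = b ^ n * (s ^ n * h) := by ring
      rw [this]
      exact B.mul_mem (B.pow_mem hb n) hs
    · have : s * b - b = (s - 1) * b := by ring
      rw [this]
      exact hs'.mul_right b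
  obtain ⟨a, haI, ha1, hak⟩ := newton π h n B1 I1 hsat1 (fun c hc => hπI B1 hπ1 c hc)
    (fun a ha => ha) (fun b hb => hsurj B1 s1 hs1 hs1' b hb) ninv hninv1 hn hh k0
  obtain ⟨b, hbI, hb1, hbk⟩ := newton π h n B2 I2 hsat2 (fun c hc => hπI B2 hπ2 c hc)
    (fun a ha => ha) (fun b hb => hsurj B2 s2 hs2 hs2' b hb) ninv hninv2 hn hh k0
  have hab : π ^ (k0 + 1) ∣ a - b := approx_root_unique π h n hjac ninv hn hh ha1 hb1 hak hbk
  have hsat12' : ∀ z, π * z ∈ I12 → z ∈ I12 := by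
    intro z hz
    have hz' : (π * z) ^ n * h ∈ B12 := hz
    rw [mul_pow, mul_assoc] at hz'
    exact sat_pow (B := B12.toAddSubgroup) hsat12 n (z ^ n * h) hz'
  have htors' : ∀ y ∈ I12, ∀ k : ℕ, π ^ k * y ∈ I1 ⊔ I2 → π ^ k0 * y ∈ I1 ⊔ I2 := by
    intro y hy k hk
    obtain ⟨a, ha, b, hb, hab⟩ := AddSubgroup.mem_sup.1 hk
    obtain ⟨a', b', ha', hb', hab'⟩ := htors y hy k ⟨a, b, ha, hb, hab.symm⟩
    rw [hab']
    exact AddSubgroup.add_mem_sup (S := I1) (T := I2) ha' hb'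
  obtain ⟨s, hs1, hs2, hs⟩ := cech_glue π I1 I2 I12 (fun y hy => h1 hy) (fun y hy => h2 hy)
    hsat12' (fun c hc => hπI B1 hπ1 c hc) (fun c hc => hπI B2 hπ2 c hc) k0 htors' haI hbI
    (Nat.lt_succ_self k0) hab ha1
  exact ⟨s, hs1, hs2, hs⟩

end Fermat.Agent.S34.Nodal
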