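/-
C1 nodal core, Layer L (architect helper201): the abstract setting.

Think of: `F` the function field of `X₀(qM)` over `K = ℚ̄`; `O` the intersection of the two Gauss
valuation rings (`v_∞`, `v_0`); `red : O → Ω = k((t)) × k((t))` the pair of reductions;
`B1`, `B2` the elements of `O` which are integral over `K[x]`, `K[1/x]`;
`bt1 = b₁ × b₁`, `bt2 = b₂ × b₂` with `b_i` the reduction of the chart `i` at level `M` (normal);
`ev : bt1 → k ^ T` the evaluation at the points of the conductor.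
-/
import Fermat.Agent.S34.Nodal.Count

set_option autoImplicit false

namespace Fermat.Agent.S34.Nodal

open Module

/-- The abstract nodal setting. -/
structure Setup (k : Type*) [Field k] (F : Type*) [Field F] (Ω : Type*) [CommRing Ω] [Algebra k Ω]
    (T : Type*) where
  /-- the exponent -/
  n : ℕ
  npos : 0 < n
  /-- the semilocal ring of the vertical valuations -/
  O : Subring F
  /-- the reduction -/
  red : O →+* Ω
  /-- chart 1 -/
  B1 : Subring F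
  /-- chart 2 -/
  B2 : Subring F
  B1_le : B1 ≤ O
  B2_le : B2 ≤ O
  /-- the coordinate -/
  x : F
  x_ne : x ≠ 0
  x_mem : x ∈ B1
  xinv_mem : x⁻¹ ∈ B2
  root_O : ∀ z : F, z ^ n ∈ O → z ∈ O
  root1 : ∀ z : F, z ^ n ∈ B1 → z ∈ B1
  root2 : ∀ z : F, z ^ n ∈ B2 → z ∈ B2
  const : ∀ c : k, ∃ a : O, (a : F) ∈ B1 ∧ (a : F) ∈ B2 ∧ red a = algebraMap k Ω c
  /-- the normalisation of the special fibre of chart 1 -/
  bt1 : Subalgebra k Ω
  /-- the normalisation of the special fibre of chart 2 -/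
  bt2 : Subalgebra k Ω
  red1 : ∀ b : O, (b : F) ∈ B1 → red b ∈ bt1
  red2 : ∀ b : O, (b : F) ∈ B2 → red b ∈ bt2
  int1 : ∀ y : O, red y ^ n ∈ bt1 → red y ∈ bt1
  int2 : ∀ y : O, red y ^ n ∈ bt2 → red y ∈ bt2
  /-- evaluation at the points of the conductor -/
  ev : bt1 →ₐ[k] (T → k)
  ker_ev : ∀ w : bt1, ev w = 0 → ∃ b : O, (b : F) ∈ B1 ∧ red b = w
  exhaust : ∀ b ∈ B1, ∃ e : ℕ, x⁻¹ ^ e * b ∈ B2
  lift : ∃ c : ℕ, ∀ e, c ≤ e → ∀ b : O, (b : F) ∈ B1 →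
    red ⟨x⁻¹, B2_le xinv_mem⟩ ^ e * red b ∈ bt2 →
      ∃ y : O, (y : F) ∈ B1 ∧ x⁻¹ ^ e * (y : F) ∈ B2 ∧ red y = red b

namespace Setup

variable {k : Type*} [Field k] {F : Type*} [Field F] {Ω : Type*} [CommRing Ω] [Algebra k Ω]
  {T : Type*} (S : Setup k F Ω T)

/-- `x` as an element of `O`. -/
def xO : S.O := ⟨S.x, S.B1_le S.x_mem⟩

/-- `x⁻¹` as an element of `O`. -/
def xinvO : S.O := ⟨S.x⁻¹, S.B2_le S.xinv_mem⟩

theorem xO_mul_xinvO : S.xO * S.xinvO = 1 := Subtype.ext (mul_inv_cancel₀ S.x_ne)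

theorem red_xO_mul : S.red S.xO * S.red S.xinvO = 1 := by
  rw [← map_mul, xO_mul_xinvO, map_one]

/-- `y ^ n * u ∈ B` is an additive condition when `B` is `n`-root closed. -/
theorem add_pow_mul_mem {n : ℕ} {B : Subring F} (hroot : ∀ z : F, z ^ n ∈ B → z ∈ B) {u y y' : F}
    (hy : y ^ n * u ∈ B) (hy' : y' ^ n * u ∈ B) : (y + y') ^ n * u ∈ B := by
  rw [add_pow, Finset.sum_mul]
  refine Subring.sum_mem _ fun i hi => ?_
  have hi' : i ≤ n := Nat.lt_succ_iff.mp (Finset.mem_range.mp hi)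
  have h1 : y ^ i * y' ^ (n - i) * u ∈ B := by
    apply hroot
    have : (y ^ i * y' ^ (n - i) * u) ^ n = (y ^ n * u) ^ i * (y' ^ n * u) ^ (n - i) := by
      have hu : u ^ n = u ^ i * u ^ (n - i) := by rw [← pow_add, Nat.add_sub_cancel' hi']
      rw [mul_pow, mul_pow, mul_pow, mul_pow, hu, ← pow_mul, ← pow_mul, ← pow_mul, ← pow_mul,
        mul_comm i n, mul_comm (n - i) n]
      ring
    rw [this]
    exact B.mul_mem (B.pow_mem hy _) (B.pow_mem hy' _)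
  have h2 : y ^ i * y' ^ (n - i) * (n.choose i : F) * u
      = (n.choose i : F) * (y ^ i * y' ^ (n - i) * u) := by ring
  rw [h2]
  exact B.mul_mem (natCast_mem B _) h1

/-- The integral sections of `O(D + e C)`, `n D = div u`. -/
def H (u : F) (e : ℕ) : Set S.O :=
  {y | (y : F) ^ S.n * u ∈ S.B1 ∧ (S.x⁻¹ ^ e * (y : F)) ^ S.n * u ∈ S.B2}

theorem H_add {u : F} {e : ℕ} {y y' : S.O} (hy : y ∈ S.H u e) (hy' : y' ∈ S.H u e) :
    y + y' ∈ S.H u e := by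
  refine ⟨add_pow_mul_mem S.root1 hy.1 hy'.1, ?_⟩
  have := add_pow_mul_mem S.root2 hy.2 hy'.2
  rwa [← mul_add] at this

theorem H_zero (u : F) (e : ℕ) : (0 : S.O) ∈ S.H u e := by
  constructor
  · simp [zero_pow S.npos.ne', S.B1.zero_mem]
  · simp [zero_pow S.npos.ne', S.B2.zero_mem]

theorem H_mul_const {u : F} {e : ℕ} {a y : S.O} (ha1 : (a : F) ∈ S.B1) (ha2 : (a : F) ∈ S.B2)
    (hy : y ∈ S.H u e) : a * y ∈ S.H u e := by
  constructor
  · have : ((a * y : S.O) : F) ^ S.n * u = (a : F) ^ S.n * ((y : F) ^ S.n * u) := by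
      push_cast; ring
    rw [this]
    exact S.B1.mul_mem (S.B1.pow_mem ha1 _) hy.1
  · have : (S.x⁻¹ ^ e * ((a * y : S.O) : F)) ^ S.n * u
        = (a : F) ^ S.n * ((S.x⁻¹ ^ e * (y : F)) ^ S.n * u) := by
      push_cast; ring
    rw [this]
    exact S.B2.mul_mem (S.B2.pow_mem ha2 _) hy.2

theorem H_mono {u : F} {e e' : ℕ} (h : e ≤ e') : S.H u e ⊆ S.H u e' := by
  intro y hy
  refine ⟨hy.1, ?_⟩
  obtain ⟨d, rfl⟩ := Nat.exists_eq_add_of_le h
  have : (S.x⁻¹ ^ (e + d) * (y : F)) ^ S.n * u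
      = (S.x⁻¹ ^ d) ^ S.n * ((S.x⁻¹ ^ e * (y : F)) ^ S.n * u) := by
    rw [pow_add]; ring
  rw [this]
  exact S.B2.mul_mem (S.B2.pow_mem (S.B2.pow_mem S.xinv_mem _) _) hy.2

theorem H_mul {u u' : F} {e e' : ℕ} {y y' : S.O} (hy : y ∈ S.H u e) (hy' : y' ∈ S.H u' e') :
    y * y' ∈ S.H (u * u') (e + e') := by
  constructor
  · have : ((y * y' : S.O) : F) ^ S.n * (u * u') = ((y : F) ^ S.n * u) * ((y' : F) ^ S.n * u') := by
      push_cast; ring
    rw [this]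
    exact S.B1.mul_mem hy.1 hy'.1
  · have : (S.x⁻¹ ^ (e + e') * ((y * y' : S.O) : F)) ^ S.n * (u * u')
        = ((S.x⁻¹ ^ e * (y : F)) ^ S.n * u) * ((S.x⁻¹ ^ e' * (y' : F)) ^ S.n * u') := by
      push_cast; rw [pow_add]; ring
    rw [this]
    exact S.B2.mul_mem hy.2 hy'.2

theorem H_pow {u : F} {e : ℕ} {y : S.O} (hy : y ∈ S.H u e) (m : ℕ) :
    y ^ m ∈ S.H (u ^ m) (m * e) := by
  constructor
  · have : ((y ^ m : S.O) : F) ^ S.n * u ^ m = ((y : F) ^ S.n * u) ^ m := by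
      push_cast; ring
    rw [this]
    exact S.B1.pow_mem hy.1 _
  · have : (S.x⁻¹ ^ (m * e) * ((y ^ m : S.O) : F)) ^ S.n * u ^ m
        = ((S.x⁻¹ ^ e * (y : F)) ^ S.n * u) ^ m := by
      push_cast; rw [mul_comm m e, pow_mul]; ring
    rw [this]
    exact S.B2.pow_mem hy.2 _

/-- The reduction of `H u e`, as a subspace of `bt1`. -/
def Y (u : F) (e : ℕ) : Submodule k S.bt1 where
  carrier := {w | ∃ y ∈ S.H u e, S.red y = (w : Ω)}
  add_mem' := by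
    rintro w w' ⟨y, hy, hw⟩ ⟨y', hy', hw'⟩
    exact ⟨y + y', S.H_add hy hy', by rw [map_add, hw, hw']; rfl⟩
  zero_mem' := ⟨0, S.H_zero u e, by rw [map_zero]; rfl⟩
  smul_mem' := by
    rintro c w ⟨y, hy, hw⟩
    obtain ⟨a, ha1, ha2, ha⟩ := S.const c
    refine ⟨a * y, S.H_mul_const ha1 ha2 hy, ?_⟩
    rw [map_mul, ha, hw, ← Algebra.smul_def]
    rfl

theorem mem_Y {u : F} {e : ℕ} {w : S.bt1} : w ∈ S.Y u e ↔ ∃ y ∈ S.H u e, S.red y = (w : Ω) :=
  Iff.rfl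

/-- The window: elements of `bt1` with poles of order at most `e`. -/
def Lt (e : ℕ) : Submodule k S.bt1 where
  carrier := {w | S.red S.xinvO ^ e * (w : Ω) ∈ S.bt2}
  add_mem' := by
    intro w w' hw hw'
    show S.red S.xinvO ^ e * ((w : Ω) + (w' : Ω)) ∈ S.bt2
    rw [mul_add]
    exact S.bt2.add_mem hw hw'
  zero_mem' := by
    show S.red S.xinvO ^ e * (0 : Ω) ∈ S.bt2
    rw [mul_zero]
    exact S.bt2.zero_mem
  smul_mem' := by
    intro c w hw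
    show S.red S.xinvO ^ e * (c • (w : Ω)) ∈ S.bt2
    rw [mul_smul_comm]
    exact S.bt2.smul_mem hw c

theorem mem_Lt {e : ℕ} {w : S.bt1} : w ∈ S.Lt e ↔ S.red S.xinvO ^ e * (w : Ω) ∈ S.bt2 := Iff.rfl

/-- The special fibre of chart 1, as a subalgebra of `bt1`. -/
def G : Subalgebra k S.bt1 where
  carrier := {w | ∃ b : S.O, (b : F) ∈ S.B1 ∧ S.red b = (w : Ω)}
  mul_mem' := by
    rintro w w' ⟨b, hb, hw⟩ ⟨b', hb', hw'⟩
    exact ⟨b * b', S.B1.mul_mem hb hb', by rw [map_mul, hw, hw']; rfl⟩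
  add_mem' := by
    rintro w w' ⟨b, hb, hw⟩ ⟨b', hb', hw'⟩
    exact ⟨b + b', S.B1.add_mem hb hb', by rw [map_add, hw, hw']; rfl⟩
  algebraMap_mem' := by
    intro c
    obtain ⟨a, ha1, -, ha⟩ := S.const c
    exact ⟨a, ha1, by rw [ha]; rfl⟩

theorem mem_G {w : S.bt1} : w ∈ S.G ↔ ∃ b : S.O, (b : F) ∈ S.B1 ∧ S.red b = (w : Ω) := Iff.rfl

/-- The Riemann hypothesis on `u` ("`deg D = 0`"): for large `e` the reduction of `H u e` is at
least as big as the reduction of `H 1 e`. -/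
def Riem (u : F) : Prop :=
  ∃ e₀ : ℕ, ∀ e, e₀ ≤ e → Module.Finite k (S.Y 1 e) ∧ Module.Finite k (S.Y u e) ∧
    finrank k (S.Y 1 e) ≤ finrank k (S.Y u e)

end Setup

end Fermat.Agent.S34.Nodal
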