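/-
C1 nodal core, Layer II, task NOD-N3 (owner helper246): finite generation over `A[x]`.
Proofs of the last two statements of `Torsion.lean` (names with a prime).  Mathlib only.
-/
import Mathlib
import Fermat.Agent.S34.Nodal.Torsion

set_option autoImplicit false

namespace Fermat.Agent.S34.Nodal

open Polynomial

section SpanPow

variable {A F : Type*} [CommRing A] [Field F] [Algebra A F]

/-- The `A`-span of the elements `x ^ a * g`, `g ∈ S`. -/
def torsionFG_W (A : Type*) {F : Type*} [CommRing A] [Field F] [Algebra A F] (x : F)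
    (S : Finset F) : Submodule A F :=
  Submodule.span A {z : F | ∃ g ∈ S, ∃ a : ℕ, z = x ^ a * g}

theorem torsionFG_mul_x_mem (x : F) (S : Finset F) {w : F} (hw : w ∈ torsionFG_W A x S) :
    x * w ∈ torsionFG_W A x S := by
  induction hw using Submodule.span_induction with
  | mem z hz =>
    obtain ⟨g, hg, a, rfl⟩ := hz
    exact Submodule.subset_span ⟨g, hg, a + 1, by rw [pow_succ]; ring⟩
  | zero => rw [mul_zero]; exact Submodule.zero_mem _
  | add u v _ _ hu hv => rw [mul_add]; exact Submodule.add_mem _ hu hv
  | smul c u _ hu => rw [mul_smul_comm]; exact Submodule.smul_mem _ c hu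

theorem torsionFG_aeval_mul_mem (x : F) (S : Finset F) (p : A[X]) {w : F}
    (hw : w ∈ torsionFG_W A x S) : aeval x p * w ∈ torsionFG_W A x S := by
  induction p using Polynomial.induction_on generalizing w with
  | C c =>
    rw [aeval_C, ← Algebra.smul_def]
    exact Submodule.smul_mem _ c hw
  | add p q hp hq =>
    rw [map_add, add_mul]
    exact Submodule.add_mem _ (hp hw) (hq hw)
  | monomial n c ih =>
    have h1 : aeval x (C c * X ^ (n + 1)) * w = aeval x (C c * X ^ n) * (x * w) := by
      simp only [map_mul, map_pow, aeval_X, aeval_C]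
      ring
    rw [h1]
    exact ih (torsionFG_mul_x_mem x S hw)

/-- A module over a ring `B` which is finite over `A[x]` (`A` noetherian), and which is contained in
`d⁻¹ B`, is finitely generated over `A[x]`. -/
theorem exists_spanPow' [IsNoetherianRing A]
    (x : F) (B : Subalgebra A F) (hxB : x ∈ B) (S0 : Finset F)
    (hS0 : SpanPow x S0 (Subalgebra.toSubmodule B)) (I : Submodule A F)
    (hI : ∀ b ∈ B, ∀ y ∈ I, b * y ∈ I) (d : F) (hd : d ≠ 0) (hdI : ∀ y ∈ I, d * y ∈ B) :
    ∃ S : Finset F, SpanPow x S I := by
  classical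
  let _ : Algebra A[X] F := (aeval x : A[X] →ₐ[A] F).toRingHom.toAlgebra
  have hsmul : ∀ (p : A[X]) (z : F), p • z = aeval x p * z := fun p z => Algebra.smul_def p z
  -- the `A[X]`-module generated by `S0`
  let Bx : Submodule A[X] F := Submodule.span A[X] (S0 : Set F)
  have hBx : IsNoetherian A[X] Bx := isNoetherian_of_fg_of_noetherian Bx ⟨S0, rfl⟩
  have hBle : ∀ y ∈ B, y ∈ Bx := by
    intro y hy
    have h1 := hS0.2 y hy
    clear hy
    induction h1 using Submodule.span_induction with
    | mem z hz =>
      obtain ⟨g, hg, a, rfl⟩ := hz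
      have h2 : x ^ a * g = (X ^ a : A[X]) • g := by rw [hsmul, map_pow, aeval_X]
      rw [h2]
      exact Submodule.smul_mem _ _ (Submodule.subset_span hg)
    | zero => exact Submodule.zero_mem _
    | add u v _ _ hu hv => exact Submodule.add_mem _ hu hv
    | smul c u _ hu =>
      have h2 : c • u = (C c : A[X]) • u := by rw [hsmul, aeval_C, Algebra.smul_def]
      rw [h2]
      exact Submodule.smul_mem _ _ hu
  have haeval : ∀ p : A[X], aeval x p ∈ B := fun p => by
    have := (Algebra.adjoin_le (S := B) (Set.singleton_subset_iff.mpr hxB))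
      (aeval_mem_adjoin_singleton A x (p := p))
    exact this
  -- `d * I` as an `A[X]`-module
  let J : Submodule A[X] F :=
    { carrier := {z | d⁻¹ * z ∈ I}
      add_mem' := by
        intro u v hu hv
        show d⁻¹ * (u + v) ∈ I
        rw [mul_add]
        exact I.add_mem hu hv
      zero_mem' := by
        show d⁻¹ * 0 ∈ I
        rw [mul_zero]
        exact I.zero_mem
      smul_mem' := by
        intro p u hu
        show d⁻¹ * (p • u) ∈ I
        rw [hsmul, mul_left_comm]
        exact hI _ (haeval p) _ hu }
  have hJle : J ≤ Bx := by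
    intro z hz
    have h1 := hdI _ hz
    rw [mul_inv_cancel_left₀ hd] at h1
    exact hBle z h1
  obtain ⟨T, hT⟩ : J.FG := (isNoetherian_submodule.mp hBx) J hJle
  refine ⟨T.image (fun t => d⁻¹ * t), ?_, ?_⟩
  · intro g hg
    obtain ⟨t, ht, rfl⟩ := Finset.mem_image.mp hg
    have : t ∈ J := hT ▸ Submodule.subset_span ht
    exact this
  · intro y hy
    have h1 : d * y ∈ J := by
      show d⁻¹ * (d * y) ∈ I
      rwa [inv_mul_cancel_left₀ hd]
    rw [← hT] at h1
    have key : ∀ z ∈ Submodule.span A[X] (T : Set F),
        d⁻¹ * z ∈ torsionFG_W A x (T.image (fun t => d⁻¹ * t)) := by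
      intro z hz
      induction hz using Submodule.span_induction with
      | mem t ht =>
        exact Submodule.subset_span ⟨d⁻¹ * t, Finset.mem_image_of_mem _ ht, 0, by simp⟩
      | zero => rw [mul_zero]; exact Submodule.zero_mem _
      | add u v _ _ hu hv => rw [mul_add]; exact Submodule.add_mem _ hu hv
      | smul p u _ hu =>
        rw [hsmul, mul_left_comm]
        exact torsionFG_aeval_mul_mem x _ p hu
    have h2 := key _ h1
    rwa [inv_mul_cancel_left₀ hd] at h2

end SpanPow

section IntegralClosure

/-- Transport of integrality between ring homomorphisms with comparable ranges. -/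
theorem torsionFG_isIntegralElem_of_range_le {R R' F : Type*} [CommRing R] [CommRing R']
    [CommRing F] (f : R →+* F) (g : R' →+* F) (hfg : f.range ≤ g.range) {y : F}
    (hy : f.IsIntegralElem y) : g.IsIntegralElem y := by
  obtain ⟨p, hp, hpy⟩ := hy
  have h1 : p.map f ∈ Polynomial.lifts g := by
    rw [Polynomial.lifts_iff_coeff_lifts]
    intro n
    rw [coeff_map]
    exact hfg ⟨_, rfl⟩
  obtain ⟨q, hq, -, hqm⟩ := Polynomial.lifts_and_natDegree_eq_and_monic h1 (hp.map f)
  refine ⟨q, hqm, ?_⟩
  rw [← eval_map, hq, eval_map, hpy]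

/-- The integral closure of `A[x]` in a finite separable extension of `Frac A[x]` is finite over
`A[x]` (`A` noetherian and integrally closed domain, `x` transcendental). -/
theorem exists_spanPow_integralClosure' {A K F : Type*} [CommRing A] [IsDomain A]
    [IsNoetherianRing A] [IsIntegrallyClosed A] [Field K] [Algebra A K] [IsFractionRing A K]
    [CharZero K] [Field F] [Algebra K F] [Algebra A F] [IsScalarTower A K F] (x : F)
    (hx : Transcendental K x) (hfin : FiniteDimensional (IntermediateField.adjoin K {x}) F)
    (B : Subalgebra A F) (hB : ∀ y : F, y ∈ B ↔ IsIntegral (Algebra.adjoin A {x}) y) :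
    ∃ S0 : Finset F, SpanPow x S0 (Subalgebra.toSubmodule B) := by
  classical
  let L := IntermediateField.adjoin K {x}
  let gen : L := IntermediateField.AdjoinSimple.gen K x
  have hgen : (gen : F) = x := IntermediateField.AdjoinSimple.coe_gen K x
  let _ : Algebra A[X] L := (aeval gen : A[X] →ₐ[A] L).toRingHom.toAlgebra
  let _ : Algebra A[X] F := (aeval x : A[X] →ₐ[A] F).toRingHom.toAlgebra
  have hmapL : ∀ p : A[X], algebraMap A[X] L p = aeval gen p := fun p => rfl
  have hmapF : ∀ p : A[X], algebraMap A[X] F p = aeval x p := fun p => rfl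
  have hcoe : ∀ p : A[X], ((aeval gen p : L) : F) = aeval x p := by
    intro p
    have := Polynomial.aeval_algHom_apply (L.val.restrictScalars A) gen p
    rw [← hgen]
    exact this.symm
  have : IsScalarTower A[X] L F := IsScalarTower.of_algebraMap_eq fun p => by
    rw [hmapF, hmapL]
    exact (hcoe p).symm
  -- injectivity
  have hinjF : Function.Injective (aeval x : A[X] →ₐ[A] F) := by
    have h1 : Function.Injective (aeval x : K[X] →ₐ[K] F) := transcendental_iff_injective.mp hx
    intro p q hpq
    rw [← aeval_map_algebraMap K, ← aeval_map_algebraMap K x q] at hpq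
    exact Polynomial.map_injective _ (IsFractionRing.injective A K) (h1 hpq)
  have hinjL : Function.Injective (algebraMap A[X] L) := by
    intro p q hpq
    apply hinjF
    rw [← hcoe, ← hcoe, ← hmapL, ← hmapL, hpq]
  have : FaithfulSMul A[X] L := (faithfulSMul_iff_algebraMap_injective A[X] L).mpr hinjL
  -- fraction field
  have key : ∀ r : K[X], ∃ (b : A) (r0 : A[X]), b ≠ 0 ∧
      aeval x r0 = algebraMap A F b * aeval x r := by
    intro r
    obtain ⟨b, hb, h⟩ := IsLocalization.integerNormalization_spec (nonZeroDivisors A) r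
    refine ⟨b, IsLocalization.integerNormalization (nonZeroDivisors A) r,
      nonZeroDivisors.ne_zero hb, ?_⟩
    have h2 : b • r = C (algebraMap A K b) * r := by
      rw [← algebraMap_smul K b r, smul_eq_C_mul]
    rw [← aeval_map_algebraMap K, h, h2, map_mul, aeval_C, ← IsScalarTower.algebraMap_apply]
  have hfrac : IsFractionRing A[X] L := by
    refine IsFractionRing.of_field A[X] L fun z => ?_
    obtain ⟨r, s, hz⟩ := (IntermediateField.mem_adjoin_simple_iff K (z : F)).mp z.2
    obtain ⟨b, r0, hb, hr⟩ := key r
    obtain ⟨c, s0, hc, hs⟩ := key s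
    have hb' : algebraMap A F b ≠ 0 := by
      rw [IsScalarTower.algebraMap_apply A K F]
      exact (_root_.map_ne_zero _).mpr ((map_ne_zero_iff _ (IsFractionRing.injective A K)).mpr hb)
    have hc' : algebraMap A F c ≠ 0 := by
      rw [IsScalarTower.algebraMap_apply A K F]
      exact (_root_.map_ne_zero _).mpr ((map_ne_zero_iff _ (IsFractionRing.injective A K)).mpr hc)
    refine ⟨C c * r0, C b * s0, Subtype.ext ?_⟩
    rw [hmapL, hmapL]
    push_cast
    rw [hcoe, hcoe, hz, map_mul, map_mul, aeval_C, aeval_C, hr, hs]
    by_cases hs0 : aeval x s = 0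
    · simp [hs0]
    · field_simp
  have : CharZero L := charZero_of_injective_algebraMap (algebraMap K L).injective
  -- finiteness of the integral closure
  let Cl := integralClosure A[X] F
  have hCfin : Module.Finite A[X] Cl := IsIntegralClosure.finite A[X] L F Cl
  obtain ⟨T, hT⟩ := hCfin.fg_top
  have hrange : (algebraMap A[X] F).range = (algebraMap (Algebra.adjoin A {x}) F).range := by
    ext y
    constructor
    · rintro ⟨p, rfl⟩
      exact ⟨⟨aeval x p, aeval_mem_adjoin_singleton A x⟩, rfl⟩
    · rintro ⟨⟨z, hz⟩, rfl⟩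
      rw [Algebra.adjoin_singleton_eq_range_aeval] at hz
      obtain ⟨p, rfl⟩ := hz
      exact ⟨p, rfl⟩
  have hBC : ∀ y : F, y ∈ B ↔ y ∈ Cl := by
    intro y
    rw [hB]
    exact ⟨torsionFG_isIntegralElem_of_range_le _ _ hrange.ge,
      torsionFG_isIntegralElem_of_range_le _ _ hrange.le⟩
  refine ⟨T.image (fun c : Cl => (c : F)), ?_, ?_⟩
  · intro g hg
    obtain ⟨c, -, rfl⟩ := Finset.mem_image.mp hg
    exact (hBC _).mpr c.2
  · intro y hy
    have hyC : y ∈ Cl := (hBC y).mp hy
    have h1 : (⟨y, hyC⟩ : Cl) ∈ Submodule.span A[X] (T : Set Cl) := hT ▸ Submodule.mem_top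
    have key2 : ∀ c ∈ Submodule.span A[X] (T : Set Cl),
        (c : F) ∈ torsionFG_W A x (T.image (fun c : Cl => (c : F))) := by
      intro c hc
      induction hc using Submodule.span_induction with
      | mem t ht =>
        exact Submodule.subset_span ⟨(t : F), Finset.mem_image_of_mem _ ht, 0, by simp⟩
      | zero => exact Submodule.zero_mem _
      | add u v _ _ hu hv => exact Submodule.add_mem _ hu hv
      | smul p u _ hu =>
        have h2 : ((p • u : Cl) : F) = aeval x p * (u : F) := by
          rw [Algebra.smul_def]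
          rfl
        rw [h2]
        exact torsionFG_aeval_mul_mem x _ p hu
    exact key2 _ h1

end IntegralClosure

end Fermat.Agent.S34.Nodal
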